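import Fermat.Agent.LT.Descent.Classes.Norm

set_option autoImplicit false

/-!
# The elements of odd valuation by classes, plain and twisted
-/

noncomputable section

open NumberField IsDedekindDomain
open scoped MatrixGroups

namespace FermatAgent.LT.Classes

open TF Matrix

variable {L : Type*} [Field L] [NumberField L]

/-- Conjugacy as a relation on the classes of odd valuation. -/
def oddSetoid (v : HeightOneSpectrum (𝓞 L)) : Setoid {t : PGL(2, L) // OddVal v t} where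
  r a b := IsConj a.1 b.1
  iseqv := ⟨fun a => IsConj.refl a.1, fun h => h.symm, fun h h' => h.trans h'⟩

/-- The conjugacy classes of odd valuation at `v`. -/
def Cls (v : HeightOneSpectrum (𝓞 L)) : Type _ := Quotient (oddSetoid v)

/-- A representative of a class. -/
def Cls.rep {v : HeightOneSpectrum (𝓞 L)} (c : Cls v) : PGL(2, L) := (Quotient.out c).1

theorem Cls.oddVal {v : HeightOneSpectrum (𝓞 L)} (c : Cls v) : OddVal v c.rep :=
  (Quotient.out c).2

theorem oddVal_conj (v : HeightOneSpectrum (𝓞 L)) (η t : PGL(2, L)) :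
    OddVal v (η * t * η⁻¹) ↔ OddVal v t := by
  induction η using ProjGenLinGroup.induction_on with | mk P =>
  induction t using ProjGenLinGroup.induction_on with | mk g =>
  rw [← map_inv, ← map_mul, ← map_mul, oddVal_mk, oddVal_mk, Units.val_mul, Units.val_mul,
    Matrix.det_units_conj]

theorem Cls.isConj_rep {v : HeightOneSpectrum (𝓞 L)} {t : PGL(2, L)} (h : OddVal v t) :
    IsConj t (Cls.rep (Quotient.mk (oddSetoid v) ⟨t, h⟩)) := by
  have := Quotient.mk_out (s := oddSetoid v) (⟨t, h⟩ : {t : PGL(2, L) // OddVal v t})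
  exact this.symm

theorem Cls.eq_of_isConj {v : HeightOneSpectrum (𝓞 L)} {c c' : Cls v}
    (h : IsConj c.rep c'.rep) : c = c' :=
  Quotient.out_equiv_out.mp h

theorem exists_plainEquiv (v : HeightOneSpectrum (𝓞 L)) :
    ∃ e : (Σ c : Cls v, PGL(2, L) ⧸ Subgroup.centralizer {c.rep}) ≃
        {γ : PGL(2, L) // OddVal v γ},
      ∀ (c : Cls v) (η : PGL(2, L)),
        (e ⟨c, (η : PGL(2, L) ⧸ Subgroup.centralizer {c.rep})⟩).1 = η * c.rep * η⁻¹ := by
  let f : (Σ c : Cls v, PGL(2, L) ⧸ Subgroup.centralizer {c.rep}) → {γ : PGL(2, L) // OddVal v γ} :=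
    fun x => Quotient.liftOn' x.2
      (fun η => ⟨η * x.1.rep * η⁻¹, (oddVal_conj v η _).mpr x.1.oddVal⟩) (fun a b hab => by
        have h := Subgroup.mem_centralizer_singleton_iff.mp (QuotientGroup.leftRel_apply.mp hab)
        refine Subtype.ext ?_
        show a * x.1.rep * a⁻¹ = b * x.1.rep * b⁻¹
        calc a * x.1.rep * a⁻¹ = a * (x.1.rep * (a⁻¹ * b)) * b⁻¹ := by group
          _ = b * x.1.rep * b⁻¹ := by rw [← h]; group)
  have hf : ∀ (c : Cls v) (η : PGL(2, L)),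
      (f ⟨c, (η : PGL(2, L) ⧸ Subgroup.centralizer {c.rep})⟩).1 = η * c.rep * η⁻¹ :=
    fun _ _ => rfl
  refine ⟨Equiv.ofBijective f ⟨?_, ?_⟩, hf⟩
  · rintro ⟨c, x⟩ ⟨c', x'⟩ h
    induction x using QuotientGroup.induction_on with | H a =>
    induction x' using QuotientGroup.induction_on with | H b =>
    replace h : a * c.rep * a⁻¹ = b * c'.rep * b⁻¹ := congrArg Subtype.val h
    obtain rfl : c = c' := Cls.eq_of_isConj (isConj_iff.mpr ⟨b⁻¹ * a, by
      calc b⁻¹ * a * c.rep * (b⁻¹ * a)⁻¹ = b⁻¹ * (a * c.rep * a⁻¹) * b := by group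
        _ = c'.rep := by rw [h]; group⟩)
    refine congrArg (Sigma.mk c) (QuotientGroup.eq.mpr
      (Subgroup.mem_centralizer_singleton_iff.mpr ?_))
    calc a⁻¹ * b * c.rep = a⁻¹ * (b * c.rep * b⁻¹) * b := by group
      _ = c.rep * (a⁻¹ * b) := by rw [← h]; group
  · rintro ⟨γ, hγ⟩
    obtain ⟨a, ha⟩ := isConj_iff.mp (Cls.isConj_rep hγ).symm
    exact ⟨⟨Quotient.mk _ ⟨γ, hγ⟩, (a : PGL(2, L) ⧸ _)⟩, Subtype.ext ((hf _ _).trans ha)⟩

variable {S : Setup} {σ : S.F ≃+* S.F}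

/-- The classes which are norms. -/
def NCls (σ : S.F ≃+* S.F) (v : HeightOneSpectrum (𝓞 S.K)) : Type _ :=
  {c : Cls v // ∃ δ, nm (pGal σ) δ = pIncl S c.rep}

/-- A twisted representative. -/
def NCls.delta {v : HeightOneSpectrum (𝓞 S.K)} (c : NCls σ v) : PGL(2, S.F) := c.2.choose

theorem NCls.nm_delta {v : HeightOneSpectrum (𝓞 S.K)} (c : NCls σ v) :
    nm (pGal σ) c.delta = pIncl S c.1.rep := c.2.choose_spec

theorem oddVal_twisted_conj (hσ : S.IsGalGen σ) {w : HeightOneSpectrum (𝓞 S.F)}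
    (hw : Ideal.absNorm w.asIdeal ≠ Ideal.absNorm (S.underK w).asIdeal) (η δ : PGL(2, S.F)) :
    OddVal w (η * δ * (pGal σ η)⁻¹) ↔ OddVal w δ := by
  induction η using ProjGenLinGroup.induction_on with | mk P =>
  induction δ using ProjGenLinGroup.induction_on with | mk d =>
  have hg : ∀ x : S.F, w.valuation S.F (σ x) = w.valuation S.F x := fun x => by
    rw [valuation_gal, (inert_gal_eq hσ hw).1]
  rw [pGal_mk', ← map_inv, ← map_mul, ← map_mul, oddVal_mk, oddVal_mk, Units.val_mul,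
    Units.val_mul, Matrix.det_mul, Matrix.det_mul, Matrix.coe_units_inv, Matrix.det_nonsing_inv,
    Ring.inverse_eq_inv', det_gGal, map_mul, map_mul, map_inv₀, hg, mul_right_comm,
    mul_inv_cancel₀ ((_root_.map_ne_zero _).mpr P.det_ne_zero), one_mul]

theorem exists_twistedEquiv (hσ : S.IsGalGen σ) {w : HeightOneSpectrum (𝓞 S.F)}
    (hw : Ideal.absNorm w.asIdeal ≠ Ideal.absNorm (S.underK w).asIdeal) :
    ∃ e : (Σ c : NCls σ (S.underK w), PGL(2, S.F) ⧸ twStab (pGal σ) c.delta) ≃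
        {γ : PGL(2, S.F) // OddVal w γ},
      ∀ (c : NCls σ (S.underK w)) (η : PGL(2, S.F)),
        (e ⟨c, (η : PGL(2, S.F) ⧸ twStab (pGal σ) c.delta)⟩).1 =
          η * c.delta * (pGal σ η)⁻¹ := by
  have hodd : ∀ c : NCls σ (S.underK w), OddVal w c.delta := fun c =>
    (oddVal_of_nm hσ hw c.nm_delta).mpr c.1.oddVal
  let f : (Σ c : NCls σ (S.underK w), PGL(2, S.F) ⧸ twStab (pGal σ) c.delta) →
      {γ : PGL(2, S.F) // OddVal w γ} :=
    fun x => Quotient.liftOn' x.2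
      (fun η => ⟨η * x.1.delta * (pGal σ η)⁻¹,
        (oddVal_twisted_conj hσ hw η _).mpr (hodd x.1)⟩) (fun a b hab => by
        have h := mem_twStab.mp (QuotientGroup.leftRel_apply.mp hab)
        refine Subtype.ext ?_
        show a * x.1.delta * (pGal σ a)⁻¹ = b * x.1.delta * (pGal σ b)⁻¹
        conv_rhs => rw [← h]
        rw [map_mul, map_inv]
        group
        )
  have hf : ∀ (c : NCls σ (S.underK w)) (η : PGL(2, S.F)),
      (f ⟨c, (η : PGL(2, S.F) ⧸ twStab (pGal σ) c.delta)⟩).1 =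
        η * c.delta * (pGal σ η)⁻¹ :=
    fun _ _ => rfl
  refine ⟨Equiv.ofBijective f ⟨?_, ?_⟩, hf⟩
  · rintro ⟨c, x⟩ ⟨c', x'⟩ h
    induction x using QuotientGroup.induction_on with | H a =>
    induction x' using QuotientGroup.induction_on with | H b =>
    replace h : a * c.delta * (pGal σ a)⁻¹ = b * c'.delta * (pGal σ b)⁻¹ := congrArg Subtype.val h
    obtain rfl : c = c' := by
      refine Subtype.ext (Cls.eq_of_isConj (isConj_of_isConj_pIncl hσ (isReg_of_oddVal c.1.oddVal)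
        (isConj_iff.mpr ⟨b⁻¹ * a, ?_⟩)))
      have e : c'.delta = (a⁻¹ * b)⁻¹ * c.delta * pGal σ (a⁻¹ * b) := by
        rw [map_mul, map_inv]
        calc c'.delta = b⁻¹ * (b * c'.delta * (pGal σ b)⁻¹) * pGal σ b := by group
          _ = _ := by rw [← h]; group
      rw [← c'.nm_delta, e, nm_conj (pGal_three hσ), c.nm_delta]
      group
    refine congrArg (Sigma.mk c) (QuotientGroup.eq.mpr (mem_twStab.mpr ?_))
    rw [map_mul, map_inv]
    calc (a⁻¹ * b)⁻¹ * c.delta * ((pGal σ a)⁻¹ * pGal σ b)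
        = b⁻¹ * (a * c.delta * (pGal σ a)⁻¹) * pGal σ b := by group
      _ = c.delta := by rw [h]; group
  · rintro ⟨γ, hγ⟩
    obtain ⟨t, η, ht, hn⟩ := exists_norm_class hσ hw hγ
    obtain ⟨a, ha⟩ := isConj_iff.mp (Cls.isConj_rep ht)
    set δ' := (pIncl S a⁻¹)⁻¹ * (η⁻¹ * γ * pGal σ η) * pGal σ (pIncl S a⁻¹) with hδ'
    have hn' : nm (pGal σ) δ' = pIncl S (Cls.rep (Quotient.mk (oddSetoid _) ⟨t, ht⟩)) := by
      rw [hδ', nm_conj (pGal_three hσ), hn, ← map_inv, ← map_mul, ← map_mul, inv_inv]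
      exact congrArg _ ha
    let c : NCls σ (S.underK w) := ⟨Quotient.mk (oddSetoid _) ⟨t, ht⟩, δ', hn'⟩
    obtain ⟨z, -, hz⟩ := exists_twisted_conj hσ (isReg_of_oddVal c.1.oddVal) c.nm_delta hn'
    refine ⟨⟨c, ((η * pIncl S a⁻¹ * z⁻¹ : PGL(2, S.F)) : PGL(2, S.F) ⧸ _)⟩, Subtype.ext ?_⟩
    show η * pIncl S a⁻¹ * z⁻¹ * c.delta * (pGal σ (η * pIncl S a⁻¹ * z⁻¹))⁻¹ = γ
    rw [map_mul, map_mul, map_inv (pGal σ) z]
    calc η * pIncl S a⁻¹ * z⁻¹ * c.delta *
        (pGal σ η * pGal σ (pIncl S a⁻¹) * (pGal σ z)⁻¹)⁻¹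
        = η * pIncl S a⁻¹ * (z⁻¹ * c.delta * pGal σ z) * (pGal σ (pIncl S a⁻¹))⁻¹ *
            (pGal σ η)⁻¹ := by group
      _ = γ := by rw [← hz, hδ']; group

end FermatAgent.LT.Classes

end
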