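import Fermat.Agent.LT.Descent.GeometricDefs
import Fermat.Agent.LT.TF.Local.Abstract

set_option autoImplicit false

/-!
# Projective classes: Galois action, inclusion, invariants, tori and twisted stabilisers
-/

noncomputable section

open NumberField IsDedekindDomain
open scoped MatrixGroups

namespace FermatAgent.LT.Classes

open Matrix

variable {L L' L'' : Type*} [Field L] [Field L'] [Field L'']

/-- The map of `PGL₂` along a map of fields. -/
def pMap (f : L →+* L') : PGL(2, L) →* PGL(2, L') :=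
  ProjGenLinGroup.lift (ProjGenLinGroup.mk.comp (GeneralLinearGroup.map f))
    (MonoidHom.ext fun u => by
      simp [GeneralLinearGroup.map_scalar])

theorem pMap_mk (f : L →+* L') (g : GL (Fin 2) L) :
    pMap f (ProjGenLinGroup.mk g) = ProjGenLinGroup.mk (GeneralLinearGroup.map f g) := rfl

theorem pMap_pMap (f : L →+* L') (f' : L' →+* L'') (g : PGL(2, L)) :
    pMap f' (pMap f g) = pMap (f'.comp f) g := by
  induction g using ProjGenLinGroup.induction_on with | mk g => rfl

theorem pMap_id (g : PGL(2, L)) : pMap (RingHom.id L) g = g := by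
  induction g using ProjGenLinGroup.induction_on with | mk g => rfl

/-- The action of an automorphism on `PGL₂`. -/
def pGal (σ : L ≃+* L) : MulAut PGL(2, L) where
  toFun := pMap σ.toRingHom
  invFun := pMap σ.symm.toRingHom
  left_inv g := by
    rw [pMap_pMap]
    convert pMap_id g
    ext x; simp
  right_inv g := by
    rw [pMap_pMap]
    convert pMap_id g
    ext x; simp
  map_mul' := map_mul _

theorem pGal_mk (σ : L ≃+* L) (g : GL (Fin 2) L) :
    pGal σ (ProjGenLinGroup.mk g) = ProjGenLinGroup.mk (GeneralLinearGroup.map σ.toRingHom g) := rfl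

/-- `tr² / det`. -/
def ratioGL (g : GL (Fin 2) L) : L :=
  (g : Matrix (Fin 2) (Fin 2) L).trace ^ 2 / (g : Matrix (Fin 2) (Fin 2) L).det

theorem ratioGL_mul_scalar (g : GL (Fin 2) L) (u : Lˣ) :
    ratioGL (g * GeneralLinearGroup.scalar (Fin 2) u) = ratioGL g := by
  have h : ((g * GeneralLinearGroup.scalar (Fin 2) u : GL (Fin 2) L) : Matrix (Fin 2) (Fin 2) L) =
      (u : L) • (g : Matrix (Fin 2) (Fin 2) L) := by
    rw [Units.val_mul, GeneralLinearGroup.coe_scalar]
    simp [← Matrix.smul_one_eq_diagonal]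
  rw [ratioGL, ratioGL, h, Matrix.trace_smul, Matrix.det_smul, smul_eq_mul, mul_pow,
    Fintype.card_fin, mul_div_mul_left _ _ (pow_ne_zero 2 u.ne_zero)]

/-- The invariant `tr² / det` of a projective class. -/
def pRatio : PGL(2, L) → L :=
  Quotient.lift ratioGL fun a b h => by
    obtain ⟨u, hu⟩ := ProjGenLinGroup.mk_eq_mk_iff.mp (Quotient.sound h :
      ProjGenLinGroup.mk a = ProjGenLinGroup.mk b)
    rw [← hu, ratioGL_mul_scalar]

theorem pRatio_mk (g : GL (Fin 2) L) : pRatio (ProjGenLinGroup.mk g) = ratioGL g := rfl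

/-- A regular semisimple class. -/
def IsReg (t : PGL(2, L)) : Prop := pRatio t ≠ 4

/-- A representative in `GL₂`. -/
def lift₂ (t : PGL(2, L)) : GL (Fin 2) L :=
  Function.surjInv ProjGenLinGroup.mk_surjective t

theorem mk_lift₂ (t : PGL(2, L)) : ProjGenLinGroup.mk (lift₂ t) = t :=
  Function.surjInv_eq ProjGenLinGroup.mk_surjective t

/-- The image of the centraliser in `GL₂` of a representative. -/
def torus (t : PGL(2, L)) : Subgroup PGL(2, L) :=
  (Subgroup.centralizer {lift₂ t}).map ProjGenLinGroup.mk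

/-- The twisted stabiliser of `δ`. -/
def twStab (σ : MulAut PGL(2, L)) (δ : PGL(2, L)) : Subgroup PGL(2, L) where
  carrier := {η | η⁻¹ * δ * σ η = δ}
  one_mem' := by simp
  mul_mem' {a b} ha hb := by
    simp only [Set.mem_ofPred_eq, _root_.mul_inv_rev, map_mul] at *
    calc b⁻¹ * a⁻¹ * δ * (σ a * σ b) = b⁻¹ * (a⁻¹ * δ * σ a) * σ b := by group
      _ = _ := by rw [ha, hb]
  inv_mem' {a} ha := by
    simp only [Set.mem_ofPred_eq, inv_inv, map_inv] at *
    conv_lhs => rw [← ha]
    group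

theorem mem_twStab {σ : MulAut PGL(2, L)} {δ η : PGL(2, L)} :
    η ∈ twStab σ δ ↔ η⁻¹ * δ * σ η = δ := Iff.rfl

section Valuation

variable [NumberField L]

/-- The determinant of a lift has odd valuation at `v`. -/
def OddVal (v : HeightOneSpectrum (𝓞 L)) (t : PGL(2, L)) : Prop :=
  ¬ IsSquare (v.valuation L ((lift₂ t : Matrix (Fin 2) (Fin 2) L)).det)

theorem isSquare_det_mul_scalar (v : HeightOneSpectrum (𝓞 L)) (g : GL (Fin 2) L) (u : Lˣ) :
    IsSquare (v.valuation L ((g * GeneralLinearGroup.scalar (Fin 2) u : GL (Fin 2) L) :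
      Matrix (Fin 2) (Fin 2) L).det) ↔
      IsSquare (v.valuation L (g : Matrix (Fin 2) (Fin 2) L).det) := by
  rw [Units.val_mul, Matrix.det_mul, GeneralLinearGroup.coe_scalar, Matrix.scalar_apply, Matrix.det_diagonal,
    Fin.prod_univ_two, map_mul, map_mul, ← sq]
  have hu : v.valuation L (u : L) ≠ 0 := (_root_.map_ne_zero _).mpr u.ne_zero
  constructor
  · rintro ⟨x, hx⟩
    refine ⟨x / v.valuation L (u : L), ?_⟩
    rw [div_mul_div_comm, ← hx, ← sq, mul_div_assoc, div_self (pow_ne_zero 2 hu), mul_one]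
  · rintro ⟨x, hx⟩
    exact ⟨x * v.valuation L (u : L), by rw [hx, sq, mul_mul_mul_comm]⟩

theorem oddVal_mk (v : HeightOneSpectrum (𝓞 L)) (g : GL (Fin 2) L) :
    OddVal v (ProjGenLinGroup.mk g) ↔
      ¬ IsSquare (v.valuation L (g : Matrix (Fin 2) (Fin 2) L).det) := by
  obtain ⟨u, hu⟩ := ProjGenLinGroup.mk_eq_mk_iff.mp (mk_lift₂ (ProjGenLinGroup.mk g)).symm
  rw [OddVal, ← hu, isSquare_det_mul_scalar]

end Valuation

/-- The inclusion of `PGL₂(K)` in `PGL₂(F)`. -/
def pIncl (S : Setup) : PGL(2, S.K) →* PGL(2, S.F) := pMap S.inclKF.toRingHom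

end FermatAgent.LT.Classes

end
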