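import Fermat.Agent.LT.Base.Residue
import Fermat.Agent.LT.Galois.Quaternion
import Fermat.Agent.Duality.Global.HasseNorm
import Fermat.Agent.Duality.Global.Unramified
import Fermat.Agent.TW.Cyclo

/-!
# When an element of an extension of `K` is a norm from `F`

By the Hasse norm theorem an element `u` of a field `E ⊇ K` not containing `F` is a norm from
`E F` as soon as, at every place: over `m` it is a one-unit, and away from `3 m` it has valuation
divisible by three unless the place splits in `E F`.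
-/

set_option autoImplicit false

noncomputable section

open NumberField IsDedekindDomain
open scoped Pointwise

namespace FermatAgent.LT.Classes

open FermatAgent.Duality FermatAgent.Duality.Global FermatAgent.LT.GL2F3

local notation "Qb" => AlgebraicClosure ℚ
local notation "GQ" => AlgebraicClosure ℚ ≃ₐ[ℚ] AlgebraicClosure ℚ

attribute [local instance] FermatAgent.RT.isGalois_algClosureRat numberField_of_finite

local instance : Fact (Nat.Prime 3) := ⟨Nat.prime_three⟩

/-- The class in `SL₂(𝔽₃)/Q₈ ≅ ℤ/3`. -/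
abbrev tclass (t : Tup) : ZMod 3 :=
  if TQ8 t then 0 else if TQ8 (tmul (1, 2, 0, 1) t) then 1 else 2

theorem tclass_mul : ∀ g : Tup, tdet g = 1 → ∀ h : Tup, tdet h = 1 →
    tclass (tmul g h) = tclass g + tclass h := by
  decide +kernel

theorem tclass_eq_zero : ∀ g : Tup, tclass g = 0 → TQ8 g := by
  decide +kernel

theorem fixingSubgroup_F (S : Setup) : S.F.fixingSubgroup = quaternionSubgroup.comap S.ρ := by
  obtain ⟨L, hL, h1⟩ := S.finiteLevel
  have hle : L.fixingSubgroup ≤ quaternionSubgroup.comap S.ρ := fun σ hσ => by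
    rw [Subgroup.mem_comap,
      h1 σ (fun x hx => (IntermediateField.mem_fixingSubgroup_iff L σ).mp hσ x hx)]
    exact one_mem _
  exact InfiniteGalois.fixingSubgroup_fixedField
    ⟨quaternionSubgroup.comap S.ρ, Subgroup.isClosed_of_isOpen _
      (Subgroup.isOpen_mono hle (IntermediateField.fixingSubgroup_isOpen L))⟩

theorem containsMuP_of_le {S : Setup} {E : IntermediateField ℚ Qb} (hKE : S.K ≤ E) :
    ContainsMuP 3 E := by
  obtain ⟨ζ, hζK, h3, h1, -⟩ := S.exists_three_root
  intro g hg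
  have hζ : IsPrimitiveRoot ζ 3 := IsPrimitiveRoot.iff_orderOf.mpr (orderOf_eq_prime h3 h1)
  exact FermatAgent.TW.cycloChar_eq_one_of_apply hζ (hg ⟨ζ, hKE hζK⟩)

variable {S : Setup} {E : IntermediateField ℚ Qb} (hKE : S.K ≤ E)

include hKE in
theorem tdet_of_fix {g : GQ} (hg : g ∈ E.fixingSubgroup) :
    tdet (toTup (S.ρ g : Matrix (Fin 2) (Fin 2) (ZMod 3))) = 1 := by
  rw [tdet_toTup, S.det_eq_one_of_fix (IntermediateField.fixingSubgroup_antitone hKE hg)]

/-- The character of `G_E` cutting out `E F`. -/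
def cubicChar : E.fixingSubgroup →* Multiplicative (ZMod 3) where
  toFun g := Multiplicative.ofAdd (tclass (toTup (S.ρ g : Matrix (Fin 2) (Fin 2) (ZMod 3))))
  map_one' := by
    rw [OneMemClass.coe_one, map_one, Units.val_one, toTup_one]
    rfl
  map_mul' g h := by
    rw [Subgroup.coe_mul, map_mul, Units.val_mul, toTup_mul,
      tclass_mul _ (tdet_of_fix hKE g.2) _ (tdet_of_fix hKE h.2), ofAdd_add]

theorem cubicChar_eq_one_iff (g : E.fixingSubgroup) :
    cubicChar hKE g = 1 ↔ S.ρ g ∈ quaternionSubgroup := by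
  rw [cubicChar, MonoidHom.coe_mk, OneHom.coe_mk, ofAdd_eq_one]
  constructor
  · intro h
    exact (tq8_toTup _).1 (tclass_eq_zero _ h)
  · intro h
    rw [tclass, if_pos ((tq8_toTup _).2 h)]

include hKE in
theorem exists_kummerExt_eq_sup [FiniteDimensional ℚ E] :
    ∃ a : Eˣ, kummerExt 3 a = E ⊔ S.F := by
  have : FiniteDimensional ℚ S.F := S.finiteDimensional_fixedField _
  have := IntermediateField.finiteDimensional_sup E S.F
  refine exists_eq_kummerExt (containsMuP_of_le hKE) (cubicChar hKE) (L := E ⊔ S.F) fun g => ?_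
  rw [IntermediateField.fixingSubgroup_sup, Subgroup.mem_inf, fixingSubgroup_F]
  exact ⟨fun h => ⟨h.1, (cubicChar_eq_one_iff hKE ⟨g, h.1⟩).2 h.2⟩,
    fun ⟨h, h'⟩ => ⟨h, (cubicChar_eq_one_iff hKE ⟨g, h⟩).1 h'⟩⟩

section Local

variable [FiniteDimensional ℚ E] (hE : ContainsMuP 3 E) {A : ValuationSubring Qb}

omit [FiniteDimensional ℚ E] in
/-- A one-unit is a cube in the henselian field. -/
theorem locF1_kappa_eq_zero_of_one_unit {l : ℕ} (hl : l.Prime) (hA : A.LiesOverPrime l)
    (hl3 : l ≠ 3) {u : Eˣ} (hu : A.valuation (((u : E) : Qb) - 1) < 1) :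
    locF1 A (kappa hE u) = 0 := by
  set U : Qb := ((u : E) : Qb)
  have hUv : A.valuation U = 1 := by
    have h := A.valuation.map_one_add_of_lt hu
    rwa [show (1 : Qb) + (U - 1) = U by ring] at h
  obtain ⟨r, hr⟩ := IsAlgClosed.exists_pow_nat_eq U (n := 3) (by norm_num)
  obtain ⟨ζ, hζ⟩ := HasEnoughRootsOfUnity.exists_primitiveRoot Qb 3
  have hrv : A.valuation r = 1 := by
    have h := congrArg A.valuation hr
    rw [map_pow, hUv] at h
    exact (pow_eq_one_iff.1 h).resolve_right (by norm_num)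
  have hζv : A.valuation ζ = 1 :=
    val_eq_one_of_pow_eq_one (A := A) (M := 3) (by norm_num) hζ.pow_eq_one
  -- some root is congruent to `1`
  have hprod : U - 1 = (r - 1) * (r * ζ - 1) * (r * ζ ^ 2 - 1) := by
    have h3 : ζ ^ 3 = 1 := hζ.pow_eq_one
    have hs : 1 + ζ + ζ ^ 2 = 0 := by
      have := hζ.geom_sum_eq_zero (by norm_num)
      simpa [Finset.sum_range_succ] using this
    rw [← hr]
    linear_combination (r ^ 2 * ζ - r) * hs + -r ^ 3 * h3
  obtain ⟨s, hs3, hs1⟩ : ∃ s, s ^ 3 = U ∧ A.valuation (s - 1) < 1 := by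
    by_contra! hall
    have h0 : ∀ i : ℕ, 1 ≤ A.valuation (r * ζ ^ i - 1) := fun i =>
      hall _ (by rw [mul_pow, hr, ← pow_mul, mul_comm i, pow_mul, hζ.pow_eq_one, one_pow, mul_one])
    have h1 : (1 : A.ValueGroup) ≤ A.valuation (U - 1) := by
      rw [hprod, map_mul, map_mul]
      refine one_le_mul (one_le_mul ?_ ?_) (h0 2)
      · simpa using h0 0
      · simpa using h0 1
    exact not_le_of_gt hu h1
  have hs0 : s ≠ 0 := by
    rintro rfl
    rw [zero_pow (by norm_num)] at hs3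
    rw [← hs3, map_zero] at hUv
    exact zero_ne_one hUv
  have hfix : ∀ σ ∈ localGroup E A, σ s = s := by
    intro σ hσ
    have hσ3 : (σ s / s) ^ 3 = 1 := by
      rw [div_pow, ← map_pow, hs3, show σ U = U from hσ.1 ⟨U, (u : E).2⟩, div_self]
      intro h
      rw [h, map_zero] at hUv
      exact zero_ne_one hUv
    have hsv : A.valuation s = 1 := by
      have h := A.valuation.map_one_add_of_lt hs1
      rwa [show (1 : Qb) + (s - 1) = s by ring] at h
    have hσ1 : A.valuation (σ s - 1) < 1 := by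
      rw [show σ s - 1 = σ (s - 1) by rw [map_sub, map_one]]
      exact (FermatAgent.Local.val_galois_eq hσ.2 _).trans_lt hs1
    have hq : A.valuation (σ s / s - 1) < 1 := by
      rw [div_sub_one hs0, map_div₀, hsv, div_one, show σ s - s = (σ s - 1) - (s - 1) by ring]
      exact lt_of_le_of_lt (A.valuation.map_sub _ _) (max_lt hσ1 hs1)
    exact (div_eq_one_iff_eq hs0).1 (eq_one_of_val_sub_one_lt hl hA (M := 3)
      (fun h => hl3 ((Nat.prime_dvd_prime_iff_eq hl Nat.prime_three).1 h)) (by norm_num) hσ3 hq)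
  rw [locF1_kappa, Local.kapHom_eq_zero_iff]
  exact ⟨⟨Units.mk0 s hs0, fun σ hσ => hfix σ hσ⟩, Subtype.ext (Units.ext (by
    simpa [toLocal] using hs3))⟩

end Local

include hKE in
/-- **Hasse's theorem for `E F / E`.** -/
theorem exists_norm_of_conditions [FiniteDimensional ℚ E] {s : GQ} (hsE : s ∈ E.fixingSubgroup)
    (hsF : S.ρ s ∉ quaternionSubgroup) (u : Eˣ)
    (hm : ∀ (A : ValuationSubring Qb) (l : ℕ), l.Prime → l ∣ S.m → A.LiesOverPrime l →
      A.valuation (((u : E) : Qb) - 1) < 1)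
    (hgood : ∀ P : HeightOneSpectrum (𝓞 E), ((3 * S.m : ℕ) : 𝓞 E) ∉ P.asIdeal →
      (∃ A, Over E A P ∧ ∀ σ ∈ localGroup E A, S.ρ σ ∈ quaternionSubgroup) ∨
        (3 : ℤ) ∣ ord P u) :
    ∃ z ∈ E ⊔ S.F, z * s z * s (s z) = ((u : E) : Qb) := by
  have hE := containsMuP_of_le hKE
  obtain ⟨a, ha⟩ := exists_kummerExt_eq_sup hKE
  have hchi : ∀ (g : GQ) (hg : g ∈ E.fixingSubgroup),
      (chi hE a).1 ⟨g, hg⟩ = 0 ↔ S.ρ g ∈ quaternionSubgroup := by
    intro g hg
    have h := mem_fix_kummerExt hE a (g := g)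
    rw [ha, IntermediateField.fixingSubgroup_sup, Subgroup.mem_inf, fixingSubgroup_F,
      Subgroup.mem_comap] at h
    exact ⟨fun h0 => (h.2 ⟨hg, h0⟩).2, fun h0 => (h.1 ⟨hg, h0⟩).2⟩
  have hsplit : ∀ A : ValuationSubring Qb,
      (∀ σ ∈ localGroup E A, S.ρ σ ∈ quaternionSubgroup) → locF1 A (kappa hE a) = 0 := by
    intro A h
    rw [← cl1_chi]
    exact Local.cl1_triv_eq_zero_iff.mpr
      (Subtype.ext (funext fun d => (hchi _ d.2.1).2 (h d d.2)))
  -- a generator with character one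
  set t : E.fixingSubgroup := ⟨s, hsE⟩
  have ht : (chi hE a).1 t ≠ 0 := fun h => hsF ((hchi s hsE).1 h)
  have hsym : ∀ P : HeightOneSpectrum (𝓞 E), ∃ A, Over E A P ∧ sym hE A u a = 0 := by
    intro P
    obtain ⟨A₀, hA₀⟩ := exists_place P
    obtain ⟨l, hl, hlA⟩ := hA₀.1
    have hlP := hA₀.natCast_mem hlA
    by_cases hbad : ((3 * S.m : ℕ) : 𝓞 E) ∈ P.asIdeal
    · have hdvd : l ∣ 3 * S.m := by
        rw [← hA₀.2, Ideal.mem_comap, map_natCast, ← Int.cast_natCast,
          FermatAgent.RT.intCast_mem_centre_iff hl hlA, Int.natCast_dvd_natCast] at hbad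
        exact hbad
      refine ⟨A₀, hA₀, ?_⟩
      rcases hl.dvd_mul.1 hdvd with h3 | hlm
      · obtain rfl : l = 3 := (Nat.prime_dvd_prime_iff_eq hl Nat.prime_three).1 h3
        have hq8 : ∀ σ ∈ localGroup E A₀, S.ρ σ ∈ quaternionSubgroup := by
          intro σ hσ
          have hσK := IntermediateField.fixingSubgroup_antitone hKE hσ.1
          have hdet : tdet (toTup (S.ρ σ : Matrix (Fin 2) (Fin 2) (ZMod 3))) = 1 :=
            tdet_of_fix hKE hσ.1
          obtain ⟨τ, hτ, hoct, h8, hgen⟩ := S.exists_oct_generator hlA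
          have hA' : σ • A₀ = A₀ := MulAction.mem_stabilizer_iff.1 hσ.2
          have hconj : σ * τ * σ⁻¹ ∈ A₀.inertiaSubgroupIn ℚ := hA' ▸ TW.conj_mem_inertia hτ
          obtain ⟨k, hk⟩ := Subgroup.mem_zpowers_iff.1 (hgen _ hconj)
          refine (tq8_toTup _).1 (tnormaliser_oct _ hoct _ hdet ⟨⟨(k % 8).toNat, by omega⟩, ?_⟩)
          have hpow : S.ρ τ ^ (k % 8).toNat = S.ρ τ ^ k := by
            rw [← zpow_natCast, Int.toNat_of_nonneg (Int.emod_nonneg _ (by norm_num))]
            conv_rhs => rw [← Int.emod_add_mul_ediv k 8, zpow_add, zpow_mul]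
            rw [show ((8 : ℤ)) = ((8 : ℕ) : ℤ) from rfl, zpow_natCast (S.ρ τ) 8, h8,
              _root_.one_zpow, mul_one]
          rw [Setup.toTup_pow_eq, ← toTup_mul, ← toTup_mul, ← Units.val_mul, ← Units.val_mul,
            hpow, hk, map_mul, map_mul, map_inv, inv_mul_cancel_right]
        rw [sym, hsplit A₀ hq8, map_zero]
      · have hl3 : l ≠ 3 := fun h => S.three_not_dvd (h ▸ hlm)
        rw [sym, locF1_kappa_eq_zero_of_one_unit hE hl hlA hl3 (hm A₀ l hl hlm hlA), map_zero]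
        rfl
    · rcases hgood P hbad with ⟨A, hA, h⟩ | hord
      · exact ⟨A, hA, by rw [sym, hsplit A h, map_zero]⟩
      · have hl3m : ¬ l ∣ 3 * S.m := by
          rintro ⟨c, hc⟩
          refine hbad ?_
          rw [hc, Nat.cast_mul]
          exact Ideal.mul_mem_right _ _ hlP
        have hl3 : l ≠ 3 := fun h => hl3m (h ▸ dvd_mul_right _ _)
        have haur : locF1 A₀ (kappa hE a) ∈ unramifiedH1 3 E A₀ := by
          rw [← cl1_chi, unramifiedH1, LinearMap.mem_ker]
          refine (cl1_eq_zero_iff _ _ _).2 ⟨0, ?_⟩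
          rw [map_zero]
          funext σ
          show (0 : ZMod 3) = (chi hE a).1 ⟨((σ : localGroup E A₀) : GQ), _⟩
          refine ((hchi _ _).2 ?_).symm
          have h1 : S.ρ ((σ : localGroup E A₀) : GQ) = 1 := S.unramified l hl hl3m A₀ hlA _ σ.2
          rw [h1]
          exact one_mem _
        exact ⟨A₀, hA₀, sym_units_eq_zero hE hA₀ hl hlA hl3 hord
          (dvd_ord_of_unramified hE hA₀ hl hlA hl3 haur)⟩
  choose pl hpl hloc using hsym
  have hg : gsym hE u a = 0 := gsym_eq_zero_of_sym hE pl hpl (Or.inl (by norm_num)) u a hloc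
  -- normalise the generator
  obtain ⟨t', ht', hpow⟩ : ∃ t' : E.fixingSubgroup, (chi hE a).1 t' = 1 ∧ (t' = t ∨ t' = t * t) := by
    have h3 : ∀ x : ZMod 3, x ≠ 0 → x = 1 ∨ x + x = 1 := by decide
    rcases h3 _ ht with h | h
    · exact ⟨t, h, Or.inl rfl⟩
    · exact ⟨t * t, by rw [Local.chi_mul, h], Or.inr rfl⟩
  obtain ⟨z, hz⟩ := exists_norm_of_gsym hE ht' hg
  set Z : Qb := ((z : kummerExt 3 a) : Qb)
  have hz' : Z * (t' : GQ) Z * (t' : GQ) ((t' : GQ) Z) = ((u : E) : Qb) := by
    have h := congrArg (fun w : Eˣ => ((w : E) : Qb)) hz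
    simpa [normU, Finset.prod_range_succ, pow_two] using h
  refine ⟨Z, ha ▸ (z : kummerExt 3 a).2, ?_⟩
  rcases hpow with rfl | rfl
  · exact hz'
  · have h3 : (chi hE a).1 (t * t * t) = 0 := by
      rw [Local.chi_mul, Local.chi_mul]
      generalize (chi hE a).1 t = x
      revert x
      decide
    have hfix : ((t * t * t : E.fixingSubgroup) : GQ) ∈ (kummerExt 3 a).fixingSubgroup :=
      (mem_fix_kummerExt hE a).mpr ⟨(t * t * t).2, h3⟩
    have e : s (s (s Z)) = Z := by
      simpa [AlgEquiv.mul_apply, t] using hfix (z : kummerExt 3 a)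
    simp only [Subgroup.coe_mul, AlgEquiv.mul_apply, t] at hz'
    rw [← hz', e]
    ring

end FermatAgent.LT.Classes

end
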