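import Fermat.Agent.LT.Descent.Classes.Defs
import Fermat.Agent.LT.Descent.Classes.HasseCriterion
import Fermat.Agent.LT.Descent.Classical.Eis

set_option autoImplicit false

/-!
# The generator of `Gal(F/K)` and the inert places
-/

noncomputable section

open NumberField IsDedekindDomain

namespace FermatAgent.LT.Classes

local notation "Qb" => AlgebraicClosure ℚ
local notation "GQ" => AlgebraicClosure ℚ ≃ₐ[ℚ] AlgebraicClosure ℚ

attribute [local instance] FermatAgent.RT.isGalois_algClosureRat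

variable {S : Setup} {σ : S.F ≃+* S.F}

theorem exists_extension (hσ : S.IsGalGen σ) :
    ∃ s : GQ, s ∈ S.K.fixingSubgroup ∧ S.ρ s ∉ quaternionSubgroup ∧
      ∀ x : S.F, s (x : Qb) = (σ x : Qb) := by
  let e : S.F ≃ₐ[ℚ] S.F := AlgEquiv.ofRingEquiv (f := σ) fun q => by
    simp [eq_ratCast, map_ratCast]
  refine ⟨e.liftNormal Qb, ?_, ?_, fun x => e.liftNormal_commutes Qb x⟩
  · rintro ⟨y, hy⟩
    have h := e.liftNormal_commutes Qb (S.inclKF ⟨y, hy⟩)
    rw [show e (S.inclKF ⟨y, hy⟩) = S.inclKF ⟨y, hy⟩ from hσ.2 _] at h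
    exact h
  · intro hq
    refine hσ.1 (RingEquiv.ext fun x => Subtype.ext ?_)
    have h := e.liftNormal_commutes Qb x
    exact h.symm.trans (S.apply_eq_self_of_q8 hq x.2)

theorem gal_three (hσ : S.IsGalGen σ) (x : S.F) : σ (σ (σ x)) = x := by
  obtain ⟨s, hsK, -, hs⟩ := exists_extension hσ
  refine Subtype.ext ?_
  rw [← hs, ← hs, ← hs, ← AlgEquiv.mul_apply, ← AlgEquiv.mul_apply]
  refine S.apply_eq_self_of_q8 ?_ x.2
  rw [← pow_three', map_pow]
  exact pow_three_mem_quaternionSubgroup (S.det_eq_one_of_fix hsK)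

theorem exists_pow_inv_mul {E : IntermediateField ℚ Qb} (hKE : S.K ≤ E) {s g : GQ}
    (hsE : s ∈ E.fixingSubgroup) (hsF : S.ρ s ∉ quaternionSubgroup) (hg : g ∈ E.fixingSubgroup) :
    ∃ k : ℕ, S.ρ ((s ^ k)⁻¹ * g) ∈ quaternionSubgroup := by
  let s' : E.fixingSubgroup := ⟨s, hsE⟩
  let g' : E.fixingSubgroup := ⟨g, hg⟩
  have h1 : cubicChar hKE s' ≠ 1 := fun h => hsF ((cubicChar_eq_one_iff hKE s').1 h)
  have h3 : ∀ a b : Multiplicative (ZMod 3), b ≠ 1 → a = 1 ∨ a = b ∨ a = b * b := by decide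
  have key : ∀ k : ℕ, cubicChar hKE g' = cubicChar hKE s' ^ k →
      S.ρ ((s ^ k)⁻¹ * g) ∈ quaternionSubgroup := by
    intro k hk
    have h := (cubicChar_eq_one_iff hKE ((s' ^ k)⁻¹ * g')).1 (by
      rw [map_mul, map_inv, map_pow, hk, inv_mul_cancel])
    rw [Subgroup.coe_mul, Subgroup.coe_inv, SubgroupClass.coe_pow] at h
    exact h
  rcases h3 (cubicChar hKE g') _ h1 with h | h | h
  · exact ⟨0, key 0 (by rw [pow_zero]; exact h)⟩
  · exact ⟨1, key 1 (by rw [pow_one]; exact h)⟩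
  · exact ⟨2, key 2 (by rw [pow_two]; exact h)⟩

theorem exists_inclKF_eq (hσ : S.IsGalGen σ) {x : S.F} (hx : σ x = x) :
    ∃ y : S.K, S.inclKF y = x := by
  obtain ⟨s, hsK, hsF, hs⟩ := exists_extension hσ
  suffices h : (x : Qb) ∈ S.K from ⟨⟨x, h⟩, Subtype.ext rfl⟩
  rw [← InfiniteGalois.fixedField_fixingSubgroup S.K]
  rintro ⟨g, hg⟩
  show g (x : Qb) = x
  have hfix : ∀ k : ℕ, (s ^ k) (x : Qb) = x := by
    intro k
    induction k with
    | zero => rfl
    | succ k ih => rw [pow_succ', AlgEquiv.mul_apply, ih, hs, hx]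
  obtain ⟨k, hmem⟩ := exists_pow_inv_mul (S := S) le_rfl hsK hsF hg
  have e : ((s ^ k)⁻¹ * g) (x : Qb) = x := S.apply_eq_self_of_q8 hmem x.2
  calc g (x : Qb) = (s ^ k) (((s ^ k)⁻¹ * g) (x : Qb)) := by
        rw [← AlgEquiv.mul_apply, mul_inv_cancel_left]
    _ = x := by rw [e, hfix]

theorem gal_ne (hσ : S.IsGalGen σ) : ∃ x : S.F, σ x ≠ x := by
  by_contra! h
  exact hσ.1 (RingEquiv.ext h)

set_option maxHeartbeats 800000 in
-- many case distinctions
/-- Independence of `1`, `σ`, `σ²`. -/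
theorem eq_zero_of_forall (hσ : S.IsGalGen σ) {a b c : Qb}
    (h : ∀ θ : S.F, a * (θ : Qb) + b * (σ θ : Qb) + c * (σ (σ θ) : Qb) = 0) :
    a = 0 ∧ b = 0 ∧ c = 0 := by
  obtain ⟨x, hx⟩ := gal_ne hσ
  have h3 := gal_three hσ
  have hx2 : σ (σ x) ≠ x := fun h' => hx (by conv_lhs => rw [← h', h3])
  have h12 : σ x ≠ σ (σ x) := fun h' => hx (σ.injective h').symm
  let χ : Fin 3 → (S.F →* Qb) :=
    ![S.F.val.toRingHom.toMonoidHom, (S.F.val.toRingHom.comp σ.toRingHom).toMonoidHom,
      (S.F.val.toRingHom.comp (σ.toRingHom.comp σ.toRingHom)).toMonoidHom]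
  have hχ : Function.Injective χ := by
    intro i j hij
    have e := DFunLike.congr_fun hij x
    fin_cases i <;> fin_cases j <;>
      first
      | rfl
      | (exfalso; simp [χ] at e;
         first | exact hx e.symm | exact hx e | exact hx2 e.symm | exact hx2 e)
  have hli := Fintype.linearIndependent_iff.mp
    ((linearIndependent_monoidHom S.F Qb).comp χ hχ) ![a, b, c] (funext fun θ => by
      simpa [χ, Fin.sum_univ_three, add_assoc] using h θ)
  exact ⟨hli 0, hli 1, hli 2⟩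

/-- Two combinations of `1, σ, σ²` with nonzero leading coefficient do not vanish at a common point. -/
theorem exists_apply_ne_zero (hσ : S.IsGalGen σ) (b c b' c' : Qb) :
    ∃ θ : S.F, (θ : Qb) + b * (σ θ : Qb) + c * (σ (σ θ) : Qb) ≠ 0 ∧
      (θ : Qb) + b' * (σ θ : Qb) + c' * (σ (σ θ) : Qb) ≠ 0 := by
  have key : ∀ b c : Qb, ∃ θ : S.F, (θ : Qb) + b * (σ θ : Qb) + c * (σ (σ θ) : Qb) ≠ 0 := by
    intro b c
    by_contra! h
    exact one_ne_zero (eq_zero_of_forall hσ (a := 1) (fun θ => by rw [one_mul]; exact h θ)).1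
  by_contra! h
  obtain ⟨p, hp⟩ := key b c
  obtain ⟨q, hq⟩ := key b' c'
  have hp' := h p hp
  have hq' : (q : Qb) + b * (σ q : Qb) + c * (σ (σ q) : Qb) = 0 := by
    by_contra h0
    exact hq (h q h0)
  have hsum : ((p + q : S.F) : Qb) + b * (σ (p + q) : Qb) + c * (σ (σ (p + q)) : Qb) ≠ 0 := by
    simp only [map_add, IntermediateField.coe_add]
    intro h0
    exact hp (by linear_combination h0 - hq')
  have := h (p + q) hsum
  simp only [map_add, IntermediateField.coe_add] at this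
  exact hq (by linear_combination this - hp')

/-- Hilbert 90. -/
theorem exists_eq_div_gal (hσ : S.IsGalGen σ) {μ : S.F} (h : μ * σ μ * σ (σ μ) = 1) :
    ∃ ν : S.F, ν ≠ 0 ∧ μ * σ ν = ν := by
  obtain ⟨θ, hθ, -⟩ := exists_apply_ne_zero hσ (μ : Qb) ((μ * σ μ : S.F) : Qb) 0 0
  refine ⟨θ + μ * σ θ + μ * σ μ * σ (σ θ), fun h0 => hθ ?_, ?_⟩
  · simpa using congrArg Subtype.val h0
  · rw [map_add, map_add, map_mul, map_mul, map_mul, gal_three hσ θ]
    linear_combination θ * h

/-- The degree of `F` over `ℚ` is at most six. -/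
theorem finrank_F_le (S : Setup) : Module.finrank ℚ S.F ≤ 6 := by
  have h2 := S.finrank_K
  rw [IntermediateField.finrank_eq_fixingSubgroup_index] at h2 ⊢
  rw [← Subgroup.relIndex_mul_index (IntermediateField.fixingSubgroup_antitone S.K_le_F), h2]
  have hker : S.F.fixingSubgroup.subgroupOf S.K.fixingSubgroup =
      (cubicChar (S := S) (E := S.K) le_rfl).ker := by
    ext g
    rw [MonoidHom.mem_ker, cubicChar_eq_one_iff, Subgroup.mem_subgroupOf, fixingSubgroup_F]
    rfl
  have hle : S.F.fixingSubgroup.relIndex S.K.fixingSubgroup ≤ 3 := by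
    rw [Subgroup.relIndex, hker, Subgroup.index_ker]
    exact (Nat.card_le_card_of_injective _ Subtype.val_injective).trans (by simp)
  omega

theorem exists_absNorm_map (v : HeightOneSpectrum (𝓞 S.K)) :
    ∃ r ≤ 3, Ideal.absNorm (v.asIdeal.map S.inclInt) = Ideal.absNorm v.asIdeal ^ r := by
  let _ : Algebra S.K S.F := S.inclKF.toRingHom.toAlgebra
  have : IsScalarTower ℚ S.K S.F := IsScalarTower.of_algebraMap_eq fun q =>
    (S.inclKF.commutes q).symm
  have : Module.Finite S.K S.F := Module.Finite.of_restrictScalars_finite ℚ S.K S.F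
  refine ⟨Module.finrank S.K S.F, ?_, ?_⟩
  · have h := Module.finrank_mul_finrank ℚ S.K S.F
    rw [S.finrank_K] at h
    have := finrank_F_le S
    omega
  obtain ⟨π, hπ⟩ := (IsPrincipalIdealRing.principal v.asIdeal).principal
  rw [hπ, Ideal.submodule_span_eq, Ideal.map_span, Set.image_singleton,
    Ideal.absNorm_span_singleton, Ideal.absNorm_span_singleton, ← Int.natAbs_pow]
  congr 1
  apply Int.cast_injective (α := ℚ)
  rw [Int.cast_pow, Algebra.coe_norm_int, Algebra.coe_norm_int]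
  have e : ((S.inclInt π : 𝓞 S.F) : S.F) = algebraMap S.K S.F (π : S.K) := rfl
  rw [e, ← Algebra.norm_norm (R := ℚ) (S := S.K), Algebra.norm_algebraMap, map_pow]

theorem inert_gal_eq (hσ : S.IsGalGen σ) {w : HeightOneSpectrum (𝓞 S.F)}
    (hw : Ideal.absNorm w.asIdeal ≠ Ideal.absNorm (S.underK w).asIdeal) :
    galPlace σ w = w ∧ ¬ (S.underK w).asIdeal.map S.inclInt ≤ w.asIdeal ^ 2 := by
  set v := S.underK w
  let _ : Algebra (𝓞 S.K ⧸ v.asIdeal) (𝓞 S.F ⧸ w.asIdeal) :=
    (Ideal.quotientMap w.asIdeal S.inclInt le_rfl).toAlgebra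
  have := CFT.finite_quotient_prime w
  have := v.isPrime.isMaximal v.ne_bot
  let _ := Ideal.Quotient.field v.asIdeal
  have hf := Module.natCard_eq_pow_finrank (K := 𝓞 S.K ⧸ v.asIdeal) (V := 𝓞 S.F ⧸ w.asIdeal)
  rw [CFT.natCard_quotient_eq_absNorm, CFT.natCard_quotient_eq_absNorm] at hf
  set f := Module.finrank (𝓞 S.K ⧸ v.asIdeal) (𝓞 S.F ⧸ w.asIdeal)
  have h1 : 1 < Ideal.absNorm v.asIdeal := CFT.two_le_absNorm v
  have h2 : 2 ≤ f := by
    have : 1 < Ideal.absNorm w.asIdeal := CFT.two_le_absNorm w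
    rw [hf] at this hw
    by_contra! h
    interval_cases f <;> simp at this hw
  have key : ∀ J : Ideal (𝓞 S.F), v.asIdeal.map S.inclInt ≤ J →
      ∀ j : ℕ, Ideal.absNorm J = Ideal.absNorm v.asIdeal ^ j → j ≤ 3 := by
    intro J hJ j hj
    have hdvd := Ideal.absNorm_dvd_absNorm_of_le hJ
    obtain ⟨r, hr, hr'⟩ := exists_absNorm_map (S := S) v
    rw [hj, hr', Nat.pow_dvd_pow_iff_le_right h1] at hdvd
    omega
  have hvw : v.asIdeal.map S.inclInt ≤ w.asIdeal := Ideal.map_le_iff_le_comap.mpr le_rfl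
  have hσw : v.asIdeal.map S.inclInt ≤ (galPlace σ w).asIdeal := by
    rw [Ideal.map_le_iff_le_comap]
    intro x hx
    rw [Ideal.mem_comap, galPlace_asIdeal, Ideal.mem_comap,
      show galInt σ (S.inclInt x) = S.inclInt x from RingOfIntegers.ext (hσ.2 x)]
    exact hvw (Ideal.mem_map_of_mem _ hx)
  refine ⟨?_, ?_⟩
  · by_contra hne
    have hco : (galPlace σ w).asIdeal ⊔ w.asIdeal = ⊤ :=
      ((galPlace σ w).isPrime.isMaximal (galPlace σ w).ne_bot).coprime_of_ne
        (w.isPrime.isMaximal w.ne_bot) fun h => hne (HeightOneSpectrum.ext h)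
    have hn : Ideal.absNorm (galPlace σ w).asIdeal = Ideal.absNorm w.asIdeal := by
      rw [← CFT.natCard_quotient_eq_absNorm, ← CFT.natCard_quotient_eq_absNorm]
      refine Nat.card_congr (Ideal.quotientEquiv _ _ (galInt σ) ?_).toEquiv
      rw [galPlace_asIdeal]
      exact (Ideal.map_comap_of_surjective _ (galInt σ).surjective _).symm
    have hle : v.asIdeal.map S.inclInt ≤ (galPlace σ w).asIdeal * w.asIdeal := by
      rw [Ideal.mul_eq_inf_of_coprime hco]
      exact le_inf hσw hvw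
    have := key _ hle (2 * f) (by rw [map_mul, hn, hf, ← pow_add, two_mul])
    omega
  · intro hle
    have := key _ hle (2 * f) (by rw [map_pow, hf, ← pow_mul, mul_comm])
    omega

theorem valuation_inclKF (hσ : S.IsGalGen σ) {w : HeightOneSpectrum (𝓞 S.F)}
    (hw : Ideal.absNorm w.asIdeal ≠ Ideal.absNorm (S.underK w).asIdeal) (x : S.K) :
    w.valuation S.F (S.inclKF x) = (S.underK w).valuation S.K x := by
  set v := S.underK w
  suffices key : ∀ a : 𝓞 S.K, w.intValuation (S.inclInt a) = v.intValuation a by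
    obtain ⟨a, b, -, rfl⟩ := IsFractionRing.div_surjective (A := 𝓞 S.K) x
    rw [map_div₀, map_div₀, map_div₀,
      show S.inclKF (algebraMap (𝓞 S.K) S.K a) = algebraMap (𝓞 S.F) S.F (S.inclInt a) from rfl,
      show S.inclKF (algebraMap (𝓞 S.K) S.K b) = algebraMap (𝓞 S.F) S.F (S.inclInt b) from rfl]
    simp only [HeightOneSpectrum.valuation_of_algebraMap, key]
  obtain ⟨π, hπ⟩ := (IsPrincipalIdealRing.principal v.asIdeal).principal
  rw [Ideal.submodule_span_eq] at hπ
  have hπ0 : π ≠ 0 := fun h => v.ne_bot (by rw [hπ, h, Ideal.span_singleton_eq_bot])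
  have hπw : w.intValuation (S.inclInt π) = WithZero.exp (-1 : ℤ) := by
    have hmem : S.inclInt π ∈ w.asIdeal := by
      show π ∈ v.asIdeal
      rw [hπ]; exact Ideal.mem_span_singleton_self π
    have hnot : S.inclInt π ∉ w.asIdeal ^ 2 := fun h => (inert_gal_eq hσ hw).2 (by
      rw [hπ, Ideal.map_span, Set.image_singleton, Ideal.span_singleton_le_iff_mem]
      exact h)
    have h1 := (w.intValuation_le_pow_iff_mem (S.inclInt π) 1).mpr (by rwa [pow_one])
    have h2 := (w.intValuation_le_pow_iff_mem (S.inclInt π) 2).not.mpr hnot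
    have hne : S.inclInt π ≠ 0 := fun h => hπ0 (RingOfIntegers.coe_injective
      (S.inclKF.injective (congrArg (fun z : 𝓞 S.F => (z : S.F)) (h.trans (map_zero S.inclInt).symm))))
    rw [w.intValuation_if_neg hne] at h1 h2 ⊢
    simp only [WithZero.exp_le_exp] at h1 h2
    congr 1
    push_cast at *
    omega
  have hπv : v.intValuation π = WithZero.exp (-1 : ℤ) := by
    rw [v.intValuation_singleton hπ0 hπ]
  intro a
  rcases eq_or_ne a 0 with rfl | ha
  · simp
  obtain ⟨k, b, hb, rfl⟩ := WfDvdMonoid.max_power_factor ha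
    (Ideal.span_singleton_prime hπ0 |>.mp (hπ ▸ v.isPrime)).irreducible
  rw [map_mul, map_pow, map_mul, map_pow, map_mul, map_pow, hπw, hπv]
  congr 1
  have hbv : b ∉ v.asIdeal := by rwa [hπ, Ideal.mem_span_singleton]
  rw [(v.intValuation_eq_one_iff).mpr hbv, (w.intValuation_eq_one_iff).mpr hbv]

end FermatAgent.LT.Classes

end
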