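import Fermat.Agent.LT.Descent.Classes.Norm
import Fermat.Agent.LT.Descent.Classes.HasseCriterion
import Fermat.Agent.LT.Descent.Facts.Places
import Fermat.Agent.LT.ClassField.Unram

set_option autoImplicit false

/-!
# Classes which are norms locally everywhere are norms

The ratio `u` of the eigenvalues of a representative generates with `K` a field `E` not
containing `F`; the conditions of the Hasse criterion hold for it, and a norm `z` with value `u`
gives an element of the torus with norm `t²`.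
-/

noncomputable section

open NumberField IsDedekindDomain WithZero
open scoped MatrixGroups

namespace FermatAgent.LT.Classes

open TF Matrix
open FermatAgent.RT (centre mem_centre_iff)
open FermatAgent.Duality (localGroup)
open FermatAgent.Duality.Global (Over toZB exists_over exists_place ord valuation_eq_exp)

local notation "Qb" => AlgebraicClosure ℚ
local notation "GQ" => AlgebraicClosure ℚ ≃ₐ[ℚ] AlgebraicClosure ℚ
local notation "ZB" => integralClosure ℤ (AlgebraicClosure ℚ)
local notation "M₂" => Matrix (Fin 2) (Fin 2)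

attribute [local instance] FermatAgent.RT.isGalois_algClosureRat
  FermatAgent.Duality.Global.numberField_of_finite

variable {S : Setup} {σ : S.F ≃+* S.F}

section Places

variable {L : IntermediateField ℚ Qb} [FiniteDimensional ℚ L] {A : ValuationSubring Qb}
  {P : HeightOneSpectrum (𝓞 L)}

omit [FiniteDimensional ℚ L] in
theorem natCast_mem_iff_val (h : Over L A P) (n : ℕ) :
    (n : 𝓞 L) ∈ P.asIdeal ↔ A.valuation (n : Qb) < 1 := by
  rw [h.mem_iff]
  simp

theorem val_eq_of_valuation_eq (h : Over L A P) {x y : L} (hx : x ≠ 0) (hy : y ≠ 0)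
    (e : P.valuation L x = P.valuation L y) : A.valuation (x : Qb) = A.valuation (y : Qb) := by
  refine (h.val_eq_iff (Units.mk0 x hx) (Units.mk0 y hy)).mpr ?_
  have e' : P.valuation L ((Units.mk0 x hx : Lˣ) : L) = P.valuation L ((Units.mk0 y hy : Lˣ) : L) :=
    e
  rw [valuation_eq_exp, valuation_eq_exp, WithZero.exp_inj, neg_inj] at e'
  exact e'

theorem val_lt_one_of_valuation (h : Over L A P) {x : L} (e : P.valuation L x < 1) :
    A.valuation (x : Qb) < 1 := by
  rcases eq_or_ne x 0 with rfl | hx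
  · simp
  refine lt_of_le_of_ne ((h.val_le_one_iff x).mpr e.le) fun h1 => ?_
  have h0 := (h.val_eq_one_iff (Units.mk0 x hx)).mp h1
  have e' : P.valuation L ((Units.mk0 x hx : Lˣ) : L) < 1 := e
  rw [valuation_eq_exp, h0, neg_zero, WithZero.exp_zero] at e'
  exact lt_irrefl _ e'

end Places

theorem q8_of_absNorm_eq {A : ValuationSubring Qb} {w : HeightOneSpectrum (𝓞 S.F)}
    (hA : Over S.F A w) (hw : ((3 * S.m : ℕ) : 𝓞 S.F) ∉ w.asIdeal)
    (heq : Ideal.absNorm w.asIdeal = Ideal.absNorm (S.underK w).asIdeal) {g : GQ}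
    (hgK : g ∈ S.K.fixingSubgroup) (hgd : g ∈ A.decompositionSubgroup ℚ) :
    S.ρ g ∈ quaternionSubgroup := by
  obtain ⟨l, hl, hlA⟩ := hA.1
  have hlm : ¬ l ∣ 3 * S.m := by
    rintro ⟨c, hc⟩
    refine hw ?_
    rw [hc, Nat.cast_mul]
    exact Ideal.mul_mem_right _ _ (hA.natCast_mem hlA)
  have := CFT.finite_quotient_prime w
  have := CFT.finite_quotient_prime (S.underK w)
  rw [← CFT.natCard_quotient_eq_absNorm, ← CFT.natCard_quotient_eq_absNorm] at heq
  let f := Ideal.quotientMap w.asIdeal S.inclInt (le_refl (S.underK w).asIdeal)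
  have hf : Function.Bijective f :=
    (Nat.bijective_iff_injective_and_card f).mpr
      ⟨Ideal.quotientMap_injective' (H := le_rfl) le_rfl, heq.symm⟩
  obtain ⟨i, hi, h, hh, rfl⟩ := ClassField.exists_inertia_mul_fix hl hlA S.F hgd fun b hb => by
    have hint : IsIntegral ℤ (⟨b, hb⟩ : S.F) :=
      (isIntegral_algHom_iff (S.F.val.restrictScalars ℤ) Subtype.val_injective).mp b.2
    obtain ⟨x, hx⟩ : ∃ x : 𝓞 S.F, toZB S.F x = b := ⟨⟨⟨b, hb⟩, hint⟩, Subtype.ext rfl⟩
    obtain ⟨k', hk'⟩ := hf.2 (Ideal.Quotient.mk _ x)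
    obtain ⟨k, rfl⟩ := Ideal.Quotient.mk_surjective k'
    have hmem : toZB S.K k - b ∈ centre A := by
      have := Ideal.Quotient.eq.mp (Ideal.quotientMap_mk.symm.trans hk')
      rw [← hA.2, Ideal.mem_comap, map_sub, S.toZB_inclInt, hx] at this
      exact this
    have hsm : g • (toZB S.K k - b) ∈ centre A := by
      rw [← TW.smul_centre_eq hgd]
      exact Ideal.smul_mem_pointwise_smul g _ _ hmem
    rw [smul_sub, Duality.Global.toZB_smul_of_mem hgK] at hsm
    have := sub_mem hmem hsm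
    rwa [sub_sub_sub_cancel_left] at this
  rw [map_mul, S.unramified l hl hlm A hlA i hi, one_mul]
  exact S.mem_fixing_F_iff.mp hh

section Field

variable {l : Qb} {T D : S.K}

theorem exists_affine (hl : l ^ 2 = (T : Qb) * l - (D : Qb)) {z : Qb}
    (hz : z ∈ S.K ⊔ IntermediateField.adjoin ℚ {l} ⊔ S.F) :
    ∃ x y : S.F, z = (x : Qb) + (y : Qb) * l := by
  have hle : S.K ⊔ IntermediateField.adjoin ℚ {l} ⊔ S.F ≤
      (IntermediateField.adjoin S.F {l}).restrictScalars ℚ := by
    refine sup_le (sup_le (fun w hw => ?_) ?_) fun w hw => ?_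
    · exact (IntermediateField.adjoin S.F {l}).algebraMap_mem ⟨w, S.K_le_F hw⟩
    · rw [IntermediateField.adjoin_simple_le_iff]
      exact IntermediateField.mem_adjoin_simple_self _ l
    · exact (IntermediateField.adjoin S.F {l}).algebraMap_mem ⟨w, hw⟩
  have hmem : z ∈ (IntermediateField.adjoin S.F {l}).toSubalgebra := hle hz
  have : Algebra.IsIntegral ℚ Qb := Algebra.IsAlgebraic.isIntegral
  rw [IntermediateField.adjoin_simple_toSubalgebra_of_isAlgebraic
    (Algebra.IsIntegral.isIntegral (R := ℚ) l).tower_top.isAlgebraic] at hmem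
  clear hz hle
  induction hmem using Algebra.adjoin_induction with
  | mem w hw => exact ⟨0, 1, by rw [Set.mem_singleton_iff.mp hw]; simp⟩
  | algebraMap r => exact ⟨r, 0, by simp⟩
  | add a b _ _ ha hb =>
    obtain ⟨x, y, rfl⟩ := ha
    obtain ⟨x', y', rfl⟩ := hb
    exact ⟨x + x', y + y', by simp only [IntermediateField.coe_add]; ring⟩
  | mul a b _ _ ha hb =>
    obtain ⟨x, y, rfl⟩ := ha
    obtain ⟨x', y', rfl⟩ := hb
    refine ⟨x * x' - y * y' * S.inclKF D, x * y' + y * x' + y * y' * S.inclKF T, ?_⟩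
    simp only [IntermediateField.coe_add, IntermediateField.coe_mul,
      AddSubgroupClass.coe_sub, S.coe_inclKF]
    linear_combination ((y : Qb) * y') * hl

theorem mem_K_of_fixed (hσ : S.IsGalGen σ) {s : GQ} (hs : ∀ x : S.F, s (x : Qb) = (σ x : Qb))
    (hsl : s l = l) {a b : S.F} (h : (a : Qb) + (b : Qb) * l = 0) (hK : l ∉ S.K) :
    a = 0 ∧ b = 0 := by
  rcases eq_or_ne b 0 with rfl | hb
  · exact ⟨Subtype.ext (by simpa using h), rfl⟩
  exfalso
  have hlF : ((-a / b : S.F) : Qb) = l := by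
    have hb' : (b : Qb) ≠ 0 := fun h0 => hb (Subtype.ext h0)
    simp only [IntermediateField.coe_div, IntermediateField.coe_neg]
    rw [div_eq_iff hb']
    linear_combination -h
  obtain ⟨c, hc⟩ := exists_inclKF_eq hσ (x := (-a / b : S.F)) (Subtype.ext (by
    rw [← hs, hlF, hsl]))
  refine hK ?_
  rw [← hlF, ← hc, S.coe_inclKF]
  exact c.2

theorem mem_fixing_adjoin {s : GQ} (hsK : s ∈ S.K.fixingSubgroup) (hsl : s l = l) :
    s ∈ (S.K ⊔ IntermediateField.adjoin ℚ {l}).fixingSubgroup := by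
  have h : S.K ⊔ IntermediateField.adjoin ℚ {l} ≤
      IntermediateField.fixedField (Subgroup.zpowers s) := by
    refine sup_le (IntermediateField.le_iff_le _ _ |>.mpr ?_)
      (IntermediateField.adjoin_simple_le_iff.mpr ?_)
    · rwa [Subgroup.zpowers_le]
    · rintro ⟨g, hg⟩
      have : Subgroup.zpowers s ≤ MulAction.stabilizer GQ l := by
        rw [Subgroup.zpowers_le]; exact hsl
      exact this hg
  exact (IntermediateField.le_iff_le _ _).mp h (Subgroup.mem_zpowers s)

end Field

theorem mul_poly {L : Type*} [Field L] {G : M₂ L} {T D : L}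
    (hG : G * G = T • G - D • (1 : M₂ L)) (x y x' y' : L) :
    (x • (1 : M₂ L) + y • G) * (x' • (1 : M₂ L) + y' • G) =
      (x * x' - y * y' * D) • (1 : M₂ L) + (x * y' + y * x' + y * y' * T) • G := by
  simp only [Matrix.add_mul, Matrix.mul_add, Matrix.smul_mul, Matrix.mul_smul, Matrix.one_mul,
    Matrix.mul_one, hG]
  module

theorem mul_self_eq {L : Type*} [Field L] (G : M₂ L) :
    G * G = G.trace • G - G.det • (1 : M₂ L) := by
  ext i j
  fin_cases i <;> fin_cases j <;>
    simp [Matrix.mul_apply, Fin.sum_univ_two, Matrix.trace_fin_two, Matrix.det_fin_two] <;> ring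

/-- A norm of value `l² / det` gives a class of norm `t²`. -/
theorem exists_nm_sq (hσ : S.IsGalGen σ) {g : GL (Fin 2) S.K}
    (ht : IsReg (ProjGenLinGroup.mk g)) {l : Qb}
    (hl : l ^ 2 = ((g : M₂ S.K).trace : Qb) * l - ((g : M₂ S.K).det : Qb))
    {s : GQ} (hsK : s ∈ S.K.fixingSubgroup) (hs : ∀ x : S.F, s (x : Qb) = (σ x : Qb))
    (hsl : s l = l) {z : Qb} (hz : z ∈ S.K ⊔ IntermediateField.adjoin ℚ {l} ⊔ S.F)
    (hzn : z * s z * s (s z) = l ^ 2 / ((g : M₂ S.K).det : Qb)) :
    ∃ x ∈ torus (pIncl S (ProjGenLinGroup.mk g)),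
      nm (pGal σ) x = pIncl S (ProjGenLinGroup.mk g) * pIncl S (ProjGenLinGroup.mk g) := by
  set T := (g : M₂ S.K).trace with hTdef
  set D := (g : M₂ S.K).det with hDdef
  have hD : ((D : S.K) : Qb) ≠ 0 := fun h => g.det_ne_zero (Subtype.ext h)
  have hll : l * ((T : Qb) - l) = D := by linear_combination -hl
  have hl0 : l ≠ 0 := fun h => hD (by rw [← hll, h, zero_mul])
  have hl' : (T : Qb) - l ≠ 0 := fun h => hD (by rw [← hll, h, mul_zero])
  have hdiff : l - ((T : Qb) - l) ≠ 0 := fun h => by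
    refine isReg_mk.mp ht (Subtype.ext ?_)
    rw [← hTdef, ← hDdef]
    simp only [SubmonoidClass.coe_pow, IntermediateField.coe_mul]
    rw [show ((4 : S.K) : Qb) = 4 from map_ofNat S.K.val 4]
    linear_combination (2 * l - (T : Qb)) * h - (4 : Qb) * hl
  obtain ⟨x, y, hxy, hxy'⟩ : ∃ x y : S.F, z = (x : Qb) + (y : Qb) * l ∧
      (l ∈ S.K → z⁻¹ = (x : Qb) + (y : Qb) * ((T : Qb) - l)) := by
    obtain ⟨x, y, hxy⟩ := exists_affine hl hz
    by_cases hK : l ∈ S.K
    · have hlF : l ∈ S.F := S.K_le_F hK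
      have hzF : z ∈ S.F := by
        rw [hxy]; exact add_mem x.2 (mul_mem y.2 hlF)
      let lF : S.F := ⟨l, hlF⟩
      let zF : S.F := ⟨z, hzF⟩
      let Y : S.F := (zF - zF⁻¹) / (lF - (S.inclKF T - lF))
      refine ⟨zF - Y * lF, Y, by simp [zF, lF], fun _ => ?_⟩
      simp only [Y, AddSubgroupClass.coe_sub, IntermediateField.coe_mul, IntermediateField.coe_div,
        IntermediateField.coe_inv, S.coe_inclKF, zF, lF]
      field_simp
      ring
    · exact ⟨x, y, hxy, fun h => absurd h hK⟩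
  -- the norm of `x + y G`
  set G : M₂ S.F := (gIncl S g : M₂ S.F) with hG
  have hG2 : G * G = S.inclKF T • G - S.inclKF D • (1 : M₂ S.F) := by
    rw [mul_self_eq G, hG, trace_gIncl, det_gIncl]
  have hΦG : σ.toRingHom.mapMatrix G = G := congrArg Units.val (gGal_gIncl hσ g)
  have hΦ : ∀ a b : S.F, σ.toRingHom.mapMatrix (a • (1 : M₂ S.F) + b • G) =
      σ a • (1 : M₂ S.F) + σ b • G := by
    intro a b
    conv_rhs => rw [← hΦG]
    ext i j
    simp [Matrix.one_apply, apply_ite σ]
  set Z : M₂ S.F := x • (1 : M₂ S.F) + y • G with hZ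
  set a₁ : S.F := x * σ x - y * σ y * S.inclKF D
  set b₁ : S.F := x * σ y + y * σ x + y * σ y * S.inclKF T
  set a : S.F := a₁ * σ (σ x) - b₁ * σ (σ y) * S.inclKF D with ha
  set b : S.F := a₁ * σ (σ y) + b₁ * σ (σ x) + b₁ * σ (σ y) * S.inclKF T with hb
  have hN : Z * σ.toRingHom.mapMatrix Z * σ.toRingHom.mapMatrix (σ.toRingHom.mapMatrix Z) =
      a • (1 : M₂ S.F) + b • G := by
    rw [hZ, hΦ, hΦ, mul_poly hG2, mul_poly hG2]
  have heval : ∀ e : Qb, s e = e → e ^ 2 = (T : Qb) * e - (D : Qb) →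
      ((x : Qb) + (y : Qb) * e) * s ((x : Qb) + (y : Qb) * e) *
        s (s ((x : Qb) + (y : Qb) * e)) = (a : Qb) + (b : Qb) * e := by
    intro e he he2
    simp only [map_add, map_mul, he, hs, ha, hb, a₁, b₁, IntermediateField.coe_add,
      IntermediateField.coe_mul, AddSubgroupClass.coe_sub, S.coe_inclKF]
    generalize (x : Qb) = x₀, (y : Qb) = y₀, ((σ x : S.F) : Qb) = x₁, ((σ y : S.F) : Qb) = y₁,
      ((σ (σ x) : S.F) : Qb) = x₂, ((σ (σ y) : S.F) : Qb) = y₂
    linear_combination (y₀ * y₁ * x₂ + y₀ * x₁ * y₂ + x₀ * y₁ * y₂ + y₀ * y₁ * y₂ * (e + (T : Qb))) * he2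
  have hT' : s (T : Qb) = T := hsK T
  have hsT : s ((T : Qb) - l) = (T : Qb) - l := by rw [map_sub, hsl, hT']
  have e1 : (a : Qb) + (b : Qb) * l = l ^ 2 / D := by
    rw [← heval l hsl hl, ← hxy, hzn]
  have hab : a = -1 ∧ b = S.inclKF (T / D) := by
    have e1' : ((a + 1 : S.F) : Qb) + ((b - S.inclKF (T / D) : S.F) : Qb) * l = 0 := by
      simp only [IntermediateField.coe_add, AddSubgroupClass.coe_sub, OneMemClass.coe_one,
        S.coe_inclKF, IntermediateField.coe_div]
      rw [eq_div_iff hD] at e1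
      field_simp
      linear_combination e1 + hl
    by_cases hK : l ∈ S.K
    · have hz' := hxy' hK
      have e2 : (a : Qb) + (b : Qb) * ((T : Qb) - l) = ((T : Qb) - l) ^ 2 / D := by
        rw [← heval _ hsT (by linear_combination hl), ← hz', map_inv₀, map_inv₀, ← mul_inv, ← mul_inv,
          hzn, inv_div, eq_div_iff hD, div_mul_eq_mul_div, div_eq_iff (pow_ne_zero 2 hl0)]
        linear_combination (-((D : S.K) : Qb) - l * ((T : Qb) - l)) * hll
      simp only [IntermediateField.coe_add, AddSubgroupClass.coe_sub, OneMemClass.coe_one,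
        S.coe_inclKF, IntermediateField.coe_div] at e1'
      rw [eq_div_iff hD] at e2
      have hb0 : (l - ((T : Qb) - l)) * ((b : Qb) - (T : Qb) / D) = 0 := by
        field_simp
        field_simp at e1'
        linear_combination e1' - e2 - hl
      have hbQ := sub_eq_zero.mp ((mul_eq_zero.mp hb0).resolve_left hdiff)
      rw [hbQ, sub_self, zero_mul, add_zero] at e1'
      exact ⟨Subtype.ext (by simpa using eq_neg_of_add_eq_zero_left e1'),
        Subtype.ext (by rw [hbQ, S.coe_inclKF, IntermediateField.coe_div])⟩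
    · obtain ⟨h1, h2⟩ := mem_K_of_fixed hσ hs hsl e1' hK
      exact ⟨eq_neg_of_add_eq_zero_left h1, sub_eq_zero.mp h2⟩
  have hN2 : S.inclKF D • (Z * σ.toRingHom.mapMatrix Z *
      σ.toRingHom.mapMatrix (σ.toRingHom.mapMatrix Z)) = G * G := by
    have hD0 : S.inclKF D ≠ 0 := (_root_.map_ne_zero _).mpr g.det_ne_zero
    rw [hN, hG2, hab.1, hab.2, map_div₀, smul_add, smul_smul, smul_smul,
      mul_div_cancel₀ _ hD0, mul_neg, mul_one, neg_smul, neg_add_eq_sub]
  have hZ0 : Z.det ≠ 0 := by
    intro h0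
    have := congrArg Matrix.det hN2
    rw [Matrix.det_smul, Matrix.det_mul, Matrix.det_mul, h0, zero_mul, zero_mul, mul_zero,
      Matrix.det_mul] at this
    exact mul_ne_zero (gIncl S g).det_ne_zero (gIncl S g).det_ne_zero this.symm
  refine ⟨ProjGenLinGroup.mk (GeneralLinearGroup.mkOfDetNeZero Z hZ0),
    mem_torus_pIncl_mk.mpr ⟨_, ?_, rfl⟩, ?_⟩
  · show Z * G = G * Z
    simp only [hZ, Matrix.add_mul, Matrix.mul_add, Matrix.smul_mul, Matrix.mul_smul,
      Matrix.one_mul, Matrix.mul_one]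
  · rw [nm_mk, pIncl_mk, ← map_mul, mk_eq_mk_iff_smul]
    exact ⟨S.inclKF D, hN2⟩

theorem exists_nm_of_local (hσ : S.IsGalGen σ) {w₀ : HeightOneSpectrum (𝓞 S.F)}
    (_hw₀ : Ideal.absNorm w₀.asIdeal ≠ Ideal.absNorm (S.underK w₀).asIdeal)
    {t : PGL(2, S.K)} (hodd : OddVal (S.underK w₀) t)
    (hinert : ∀ w : HeightOneSpectrum (𝓞 S.F), ((3 * S.m : ℕ) : 𝓞 S.F) ∉ w.asIdeal →
      Ideal.absNorm w.asIdeal ≠ Ideal.absNorm (S.underK w).asIdeal →
      1 < (S.underK w).valuation S.K (pRatio t) →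
      ∃ c : WithZero (Multiplicative ℤ), c ^ 3 = (S.underK w).valuation S.K (pRatio t))
    (hm : ∀ v : HeightOneSpectrum (𝓞 S.K), ((S.m : ℕ) : 𝓞 S.K) ∈ v.asIdeal →
      v.valuation S.K (pRatio t - 4) < 1) :
    ∃ δ : PGL(2, S.F), nm (pGal σ) δ = pIncl S t := by
  have ht := isReg_of_oddVal hodd
  induction t using ProjGenLinGroup.induction_on with | mk g =>
  set T := (g : M₂ S.K).trace with hTdef
  set D := (g : M₂ S.K).det with hDdef
  by_cases hT0 : T = 0
  · -- an involution is its own norm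
    have h2 : ProjGenLinGroup.mk g * ProjGenLinGroup.mk g = 1 := by
      rw [← map_mul, ← map_one ProjGenLinGroup.mk, eq_comm, mk_eq_mk_iff_smul]
      exact ⟨-D, by rw [Units.val_mul, Units.val_one, mul_self_eq, ← hTdef, hT0, zero_smul,
        zero_sub, neg_smul]⟩
    refine ⟨pIncl S (ProjGenLinGroup.mk g), ?_⟩
    rw [nm, pGal_pIncl hσ, pGal_pIncl hσ, ← map_mul, ← map_mul, h2, one_mul]
  have hD : ((D : S.K) : Qb) ≠ 0 := fun h => g.det_ne_zero (Subtype.ext h)
  obtain ⟨l, hl⟩ := IsAlgClosed.exists_root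
    (Polynomial.X ^ 2 - Polynomial.C (T : Qb) * Polynomial.X + Polynomial.C (D : Qb) : Polynomial Qb)
    (by
      intro h
      have := congrArg (fun p : Polynomial Qb => p.coeff 2) (Polynomial.eq_C_of_degree_eq_zero h)
      simp [Polynomial.coeff_C] at this)
  simp only [Polynomial.IsRoot.def, Polynomial.eval_add, Polynomial.eval_sub, Polynomial.eval_mul,
    Polynomial.eval_pow, Polynomial.eval_X, Polynomial.eval_C] at hl
  replace hl : l ^ 2 = (T : Qb) * l - (D : Qb) := by linear_combination hl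
  have hl0 : l ≠ 0 := fun h => hD (by rw [h] at hl; linear_combination hl)
  -- a generator of `Gal(F/K)` fixing `l`
  obtain ⟨s₁, hs₁K, -, hs₁⟩ := exists_extension hσ
  set s := s₁ * s₁ * (s₁ * s₁) with hsdef
  have hsK : s ∈ S.K.fixingSubgroup := mul_mem (mul_mem hs₁K hs₁K) (mul_mem hs₁K hs₁K)
  have hT' : s₁ (T : Qb) = T := hs₁K T
  have hD' : s₁ (D : Qb) = D := hs₁K D
  have hsl : s l = l := by
    have hroot : s₁ l = l ∨ s₁ l = (T : Qb) - l := by
      have e := congrArg s₁ hl
      rw [map_pow, map_sub, map_mul, hT', hD'] at e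
      rcases mul_eq_zero.mp (show (s₁ l - l) * (s₁ l - ((T : Qb) - l)) = 0 by
        linear_combination e - hl) with h | h
      · exact Or.inl (sub_eq_zero.mp h)
      · exact Or.inr (sub_eq_zero.mp h)
    have h2 : s₁ (s₁ l) = l := by
      rcases hroot with h | h
      · rw [h, h]
      · rw [h, map_sub, hT', h, sub_sub_cancel]
    simp only [hsdef, AlgEquiv.mul_apply, h2]
  have hs : ∀ x : S.F, s (x : Qb) = (σ x : Qb) := fun x => by
    simp only [hsdef, AlgEquiv.mul_apply, hs₁, gal_three hσ]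
  have hsF : S.ρ s ∉ quaternionSubgroup := fun h => hσ.1 (RingEquiv.ext fun x =>
    Subtype.ext ((hs x).symm.trans (S.apply_eq_self_of_q8 h x.2)))
  set E : IntermediateField ℚ Qb := S.K ⊔ IntermediateField.adjoin ℚ {l} with hE
  have : FiniteDimensional ℚ (IntermediateField.adjoin ℚ {l}) :=
    IntermediateField.adjoin.finiteDimensional
      (FermatAgent.RT.isGalois_algClosureRat.to_normal.isIntegral _)
  have : FiniteDimensional ℚ S.K := S.finiteDimensional_fixedField _
  have : FiniteDimensional ℚ E := IntermediateField.finiteDimensional_sup _ _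
  set U : Qb := l ^ 2 / D with hU
  have hU0 : U ≠ 0 := div_ne_zero (pow_ne_zero 2 hl0) hD
  have hUE : U ∈ E := div_mem
    (pow_mem ((le_sup_right : _ ≤ E) (IntermediateField.mem_adjoin_simple_self ℚ l)) 2)
    ((le_sup_left : _ ≤ E) D.2)
  let u : Eˣ := Units.mk0 ⟨U, hUE⟩ fun h => hU0 (congrArg Subtype.val h)
  set r : S.K := pRatio (ProjGenLinGroup.mk g) with hr
  have hrD : r = T ^ 2 / D := rfl
  have hr0 : r ≠ 0 := by
    rw [hrD]; exact div_ne_zero (pow_ne_zero 2 hT0) g.det_ne_zero
  have hru : (r : Qb) * U = (U + 1) ^ 2 := by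
    rw [hrD, hU, IntermediateField.coe_div, SubmonoidClass.coe_pow]
    field_simp
    linear_combination (-(l ^ 2 + (T : Qb) * l + D)) * hl
  obtain ⟨z, hz, hzn⟩ : ∃ z ∈ E ⊔ S.F, z * s z * s (s z) = U := by
    refine exists_norm_of_conditions (S := S) (E := E) le_sup_left (mem_fixing_adjoin hsK hsl)
      hsF u ?_ ?_
    · intro A p hp hpm hpA
      obtain ⟨v, hv⟩ := exists_over (K := S.K) (A := A) ⟨p, hp, hpA⟩
      have hvm : ((S.m : ℕ) : 𝓞 S.K) ∈ v.asIdeal := by
        obtain ⟨c, hc⟩ := hpm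
        rw [hc, Nat.cast_mul]
        exact Ideal.mul_mem_right _ _ (hv.natCast_mem hpA)
      have h4 : A.valuation ((r : Qb) - 4) < 1 := val_lt_one_of_valuation hv (hm v hvm)
      show A.valuation (U - 1) < 1
      have hrle : A.valuation (r : Qb) ≤ 1 := by
        refine (hv.val_le_one_iff r).mpr ?_
        have h4' : v.valuation S.K (4 : S.K) ≤ 1 := by
          rw [show (4 : S.K) = algebraMap (𝓞 S.K) S.K 4 from (map_ofNat _ 4).symm]
          exact v.valuation_le_one (K := S.K) (4 : 𝓞 S.K)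
        calc v.valuation S.K r = v.valuation S.K ((r - 4) + 4) := by rw [sub_add_cancel]
          _ ≤ 1 := (Valuation.map_add _ _ _).trans (max_le (hm v hvm).le h4')
      have hUle : A.valuation U ≤ 1 := by
        by_contra! h1
        have e := congrArg A.valuation hru
        rw [map_mul, map_pow, Valuation.map_add_eq_of_lt_left _ (by rwa [map_one]), pow_two] at e
        have e2 := mul_right_cancel₀ (ne_of_gt (zero_lt_one.trans h1)) e
        exact absurd (e2 ▸ hrle) (not_le.mpr h1)
      have e := congrArg A.valuation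
        (show (U - 1) ^ 2 = ((r : Qb) - 4) * U by linear_combination -hru)
      rw [map_pow, map_mul] at e
      exact (pow_lt_one_iff (two_ne_zero : (2 : ℕ) ≠ 0)).mp
        (e ▸ mul_lt_one_of_nonneg_of_lt_one_left zero_le h4 hUle)
    · intro P hP
      obtain ⟨A, hA⟩ := exists_place P
      obtain ⟨w, hw⟩ := exists_over (K := S.F) (A := A) hA.1
      have hwbad : ((3 * S.m : ℕ) : 𝓞 S.F) ∉ w.asIdeal := fun h =>
        hP ((natCast_mem_iff_val hA _).mpr ((natCast_mem_iff_val hw _).mp h))
      by_cases hsplit : Ideal.absNorm w.asIdeal = Ideal.absNorm (S.underK w).asIdeal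
      · exact Or.inl ⟨A, hA, fun τ hτ => q8_of_absNorm_eq hw hwbad hsplit
          (IntermediateField.fixingSubgroup_antitone le_sup_left hτ.1) hτ.2⟩
      refine Or.inr ?_
      have hvA := S.over_underK hw
      -- the valuation of the invariant is a cube where it is not integral
      have hcube : 1 < A.valuation (r : Qb) → ∃ y : Eˣ,
          A.valuation (r : Qb) = A.valuation (((y ^ 3 : Eˣ) : E) : Qb) := by
        intro h1
        obtain ⟨c, hc⟩ := hinert w hwbad hsplit
          (not_le.mp fun h => not_le.mpr h1 ((hvA.val_le_one_iff r).mpr h))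
        obtain ⟨y, rfl⟩ := (S.underK w).valuation_surjective S.K c
        have hy0 : y ≠ 0 := by
          rintro rfl
          rw [map_zero, zero_pow three_ne_zero, eq_comm, _root_.map_eq_zero] at hc
          exact hr0 hc
        refine ⟨Units.mk0 ⟨(y : Qb), (le_sup_left : _ ≤ E) y.2⟩
          (fun h => hy0 (Subtype.ext (by simpa using congrArg Subtype.val h))), ?_⟩
        rw [val_eq_of_valuation_eq hvA hr0 (pow_ne_zero 3 hy0) (by rw [map_pow, hc])]
        simp
      rcases lt_trichotomy (A.valuation U) 1 with hlt | heq | hgt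
      · have e := congrArg A.valuation hru
        rw [map_mul, map_pow, Valuation.map_add_eq_of_lt_right _ (by rwa [map_one]), map_one,
          one_pow] at e
        have hUpos : 0 < A.valuation U := zero_lt_iff.mpr ((_root_.map_ne_zero _).mpr hU0)
        obtain ⟨y, hy⟩ := hcube (by
          rw [eq_inv_of_mul_eq_one_left e]
          exact (one_lt_inv₀ hUpos).mpr hlt)
        have := (hA.val_eq_one_iff (y ^ 3 * u)).mp (by
          rw [Units.val_mul, MulMemClass.coe_mul, map_mul, ← hy]
          exact e)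
        rw [Duality.Global.ord_mul, Duality.Global.ord_pow] at this
        omega
      · rw [(hA.val_eq_one_iff u).mp heq]
        exact dvd_zero 3
      · have e := congrArg A.valuation hru
        rw [map_mul, map_pow, Valuation.map_add_eq_of_lt_left _ (by rwa [map_one]), pow_two] at e
        have e2 := mul_right_cancel₀ (ne_of_gt (zero_lt_one.trans hgt)) e
        obtain ⟨y, hy⟩ := hcube (by rw [e2]; exact hgt)
        rw [e2] at hy
        rw [(hA.val_eq_iff u (y ^ 3)).mp hy, Duality.Global.ord_pow]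
        exact dvd_mul_right _ _
  obtain ⟨x, hx, hxn⟩ := exists_nm_sq hσ ht hl hsK hs hsl hz hzn
  set t := pIncl S (ProjGenLinGroup.mk g) with htdef
  have hT := isTorus_pIncl hσ ht
  have hd : t * x⁻¹ ∈ torus t := mul_mem (self_mem_torus t) (inv_mem hx)
  refine ⟨t * x⁻¹, ?_⟩
  have e := hT.nm_mul hd hx
  rw [inv_mul_cancel_right, hxn, nm, pGal_pIncl hσ, pGal_pIncl hσ, mul_assoc] at e
  exact (mul_right_cancel e).symm

end FermatAgent.LT.Classes

end
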