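import Fermat.Agent.LT.Descent.Classes.Defs

set_option autoImplicit false

/-!
# Two by two matrices: cyclic vectors, commutants, conjugacy, tori
-/

noncomputable section

open scoped MatrixGroups

namespace FermatAgent.LT.Classes

variable {L : Type*} [Field L]

local notation "M₂" => Matrix (Fin 2) (Fin 2)

/-- The matrix with columns `e`, `M e`. -/
def cycMat (M : M₂ L) (e : Fin 2 → L) : M₂ L :=
  !![e 0, M 0 0 * e 0 + M 0 1 * e 1; e 1, M 1 0 * e 0 + M 1 1 * e 1]

/-- The companion matrix. -/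
def compMat (T D : L) : M₂ L := !![0, -D; 1, T]

theorem mul_cycMat (M : M₂ L) (e : Fin 2 → L) :
    M * cycMat M e = cycMat M e * compMat M.trace M.det := by
  ext i j
  fin_cases i <;> fin_cases j <;>
    simp [cycMat, compMat, Matrix.mul_apply, Fin.sum_univ_two, Matrix.trace_fin_two,
      Matrix.det_fin_two] <;> ring

/-- The matrix is not a scalar. -/
def NonScalar (M : M₂ L) : Prop := ¬ (M 0 1 = 0 ∧ M 1 0 = 0 ∧ M 0 0 = M 1 1)

theorem exists_cyclic {M : M₂ L} (hM : NonScalar M) : ∃ e, (cycMat M e).det ≠ 0 := by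
  by_contra! h
  have h1 := h ![1, 0]
  have h2 := h ![0, 1]
  have h3 := h ![1, 1]
  simp [cycMat, Matrix.det_fin_two] at h1 h2 h3
  refine hM ⟨h2, h1, ?_⟩
  rw [h1, h2] at h3
  linear_combination -h3

theorem nonScalar_of_disc {M : M₂ L} (h : M.trace ^ 2 ≠ 4 * M.det) : NonScalar M := by
  rintro ⟨h1, h2, h3⟩
  refine h ?_
  rw [Matrix.trace_fin_two, Matrix.det_fin_two, h1, h2, h3]
  ring

theorem exists_eq_of_commute {M X : M₂ L} (hM : NonScalar M) (h : X * M = M * X) :
    ∃ a b : L, X = a • (1 : M₂ L) + b • M := by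
  obtain ⟨e, he⟩ := exists_cyclic hM
  set P := cycMat M e
  have hP : IsUnit P.det := isUnit_iff_ne_zero.mpr he
  set C := P⁻¹ * X * P with hC
  set a := C 0 0
  set b := C 1 0
  refine ⟨a, b, ?_⟩
  have hcomm : C * compMat M.trace M.det = compMat M.trace M.det * C := by
    have h1 : P⁻¹ * M * P = compMat M.trace M.det := by
      rw [Matrix.mul_assoc, mul_cycMat, ← Matrix.mul_assoc, Matrix.nonsing_inv_mul P hP,
        Matrix.one_mul]
    rw [← h1, hC]
    calc P⁻¹ * X * P * (P⁻¹ * M * P) = P⁻¹ * X * (P * P⁻¹) * M * P := by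
          simp only [Matrix.mul_assoc]
      _ = P⁻¹ * (X * M) * P := by rw [Matrix.mul_nonsing_inv P hP, Matrix.mul_one, Matrix.mul_assoc P⁻¹ X M]
      _ = P⁻¹ * (M * X) * P := by rw [h]
      _ = P⁻¹ * M * (P * P⁻¹) * X * P := by
          rw [Matrix.mul_nonsing_inv P hP, Matrix.mul_one, Matrix.mul_assoc P⁻¹ M X]
      _ = _ := by simp only [Matrix.mul_assoc]
  have e00 := congrFun (congrFun hcomm 0) 0
  have e10 := congrFun (congrFun hcomm 1) 0
  simp [compMat, Matrix.mul_apply, Fin.sum_univ_two] at e00 e10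
  have hCeq : C = a • (1 : M₂ L) + b • compMat M.trace M.det := by
    ext i j
    fin_cases i <;> fin_cases j <;> simp [a, b, compMat, e00, e10] <;> ring
  have hX : X = P * C * P⁻¹ := by
    rw [hC]
    simp only [← Matrix.mul_assoc]
    rw [Matrix.mul_nonsing_inv P hP, Matrix.one_mul, Matrix.mul_assoc,
      Matrix.mul_nonsing_inv P hP, Matrix.mul_one]
  rw [hX, hCeq, Matrix.mul_add, Matrix.add_mul, Matrix.mul_smul, Matrix.mul_smul,
    Matrix.smul_mul, Matrix.smul_mul, Matrix.mul_one, Matrix.mul_nonsing_inv P hP, ← mul_cycMat,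
    Matrix.mul_assoc, Matrix.mul_nonsing_inv P hP, Matrix.mul_one]

theorem commute_of_commute {M X Y : M₂ L} (hM : NonScalar M) (hX : X * M = M * X)
    (hY : Y * M = M * Y) : X * Y = Y * X := by
  obtain ⟨a, b, rfl⟩ := exists_eq_of_commute hM hX
  simp only [Matrix.add_mul, Matrix.mul_add, Matrix.smul_mul, Matrix.mul_smul, Matrix.one_mul,
    Matrix.mul_one, hY]

theorem det_poly (a b : L) (M : M₂ L) :
    (a • (1 : M₂ L) + b • M).det = a ^ 2 + a * b * M.trace + b ^ 2 * M.det := by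
  simp [Matrix.det_fin_two, Matrix.trace_fin_two]
  ring

/-- Companion forms. -/
theorem exists_conj_compMat (g : GL (Fin 2) L) (hg : NonScalar (g : M₂ L)) :
    ∃ P : GL (Fin 2) L, ((P⁻¹ * g * P : GL (Fin 2) L) : M₂ L) =
      compMat (g : M₂ L).trace (g : M₂ L).det := by
  obtain ⟨e, he⟩ := exists_cyclic hg
  refine ⟨Matrix.GeneralLinearGroup.mkOfDetNeZero _ he, ?_⟩
  set P := Matrix.GeneralLinearGroup.mkOfDetNeZero _ he
  rw [mul_assoc, Units.val_mul, Units.val_mul,
    show (P : M₂ L) = cycMat (g : M₂ L) e from rfl, mul_cycMat]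
  exact P.inv_mul_cancel_left _

theorem exists_conj_of_trace_det {g h : GL (Fin 2) L} (hg : NonScalar (g : M₂ L))
    (hh : NonScalar (h : M₂ L)) (ht : (g : M₂ L).trace = (h : M₂ L).trace)
    (hd : (g : M₂ L).det = (h : M₂ L).det) : ∃ P : GL (Fin 2) L, P * g * P⁻¹ = h := by
  obtain ⟨P, hP⟩ := exists_conj_compMat g hg
  obtain ⟨Q, hQ⟩ := exists_conj_compMat h hh
  have e : P⁻¹ * g * P = Q⁻¹ * h * Q := Units.ext (by rw [hP, hQ, ht, hd])
  refine ⟨Q * P⁻¹, ?_⟩
  calc Q * P⁻¹ * g * (Q * P⁻¹)⁻¹ = Q * (P⁻¹ * g * P) * Q⁻¹ := by group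
    _ = h := by rw [e]; group

/-- An element anticommuting with a trace zero one. -/
theorem exists_anticomm {g : GL (Fin 2) L} (hg : NonScalar (g : M₂ L))
    (ht : (g : M₂ L).trace = 0) : ∃ w : GL (Fin 2) L, (w : M₂ L) * g = -((g : M₂ L) * w) := by
  obtain ⟨P, hP⟩ := exists_conj_compMat g hg
  have hdet : (!![(1 : L), 0; 0, -1] : M₂ L).det ≠ 0 := by simp [Matrix.det_fin_two]
  set d := Matrix.GeneralLinearGroup.mkOfDetNeZero _ hdet
  refine ⟨P * d * P⁻¹, ?_⟩
  have hd : (d : M₂ L) * ((P⁻¹ * g * P : GL (Fin 2) L) : M₂ L) =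
      -(((P⁻¹ * g * P : GL (Fin 2) L) : M₂ L) * d) := by
    rw [hP, ht, show (d : M₂ L) = !![(1 : L), 0; 0, -1] from rfl]
    ext i j
    fin_cases i <;> fin_cases j <;> simp [compMat]
  have e1 : ((P * d * P⁻¹ * g : GL (Fin 2) L) : M₂ L) =
      (P : M₂ L) * ((d : M₂ L) * ((P⁻¹ * g * P : GL (Fin 2) L) : M₂ L)) * ((P⁻¹ : GL (Fin 2) L) : M₂ L) := by
    rw [← Units.val_mul, ← Units.val_mul, ← Units.val_mul]
    congr 1
    group
  have e2 : ((g * (P * d * P⁻¹) : GL (Fin 2) L) : M₂ L) =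
      (P : M₂ L) * (((P⁻¹ * g * P : GL (Fin 2) L) : M₂ L) * d) * ((P⁻¹ : GL (Fin 2) L) : M₂ L) := by
    rw [← Units.val_mul, ← Units.val_mul, ← Units.val_mul]
    congr 1
    group
  rw [← Units.val_mul, ← Units.val_mul, e1, e2, hd, Matrix.mul_neg, Matrix.neg_mul]

section Classes

open Matrix

theorem coe_mul_scalar (g : GL (Fin 2) L) (u : Lˣ) :
    ((g * GeneralLinearGroup.scalar (Fin 2) u : GL (Fin 2) L) : M₂ L) = (u : L) • (g : M₂ L) := by
  rw [Units.val_mul, GeneralLinearGroup.coe_scalar]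
  simp [← Matrix.smul_one_eq_diagonal]

theorem mk_eq_mk_iff_smul {g h : GL (Fin 2) L} :
    ProjGenLinGroup.mk g = ProjGenLinGroup.mk h ↔ ∃ c : L, c • (g : M₂ L) = (h : M₂ L) := by
  rw [ProjGenLinGroup.mk_eq_mk_iff]
  constructor
  · rintro ⟨u, rfl⟩
    exact ⟨u, (coe_mul_scalar g u).symm⟩
  · rintro ⟨c, hc⟩
    rcases eq_or_ne c 0 with rfl | h0
    · rw [zero_smul] at hc
      exact absurd hc.symm h.ne_zero
    · exact ⟨Units.mk0 c h0, Units.ext (by rw [coe_mul_scalar]; exact hc)⟩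

theorem isReg_mk {g : GL (Fin 2) L} :
    IsReg (ProjGenLinGroup.mk g) ↔ (g : M₂ L).trace ^ 2 ≠ 4 * (g : M₂ L).det := by
  rw [IsReg, pRatio_mk, ratioGL, ne_eq, div_eq_iff g.det_ne_zero]

theorem nonScalar_of_isReg {g : GL (Fin 2) L} (h : IsReg (ProjGenLinGroup.mk g)) :
    NonScalar (g : M₂ L) := nonScalar_of_disc (isReg_mk.mp h)

theorem centralizer_mul_scalar (g : GL (Fin 2) L) (u : Lˣ) :
    Subgroup.centralizer {g * GeneralLinearGroup.scalar (Fin 2) u} = Subgroup.centralizer {g} := by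
  have hc : ∀ x : GL (Fin 2) L, x * GeneralLinearGroup.scalar (Fin 2) u =
      GeneralLinearGroup.scalar (Fin 2) u * x := fun x =>
    Subgroup.mem_center_iff.mp (by rw [GeneralLinearGroup.center_eq_range_scalar]; exact ⟨u, rfl⟩) x
  ext x
  simp only [Subgroup.mem_centralizer_singleton_iff]
  rw [← mul_assoc, mul_assoc g, ← hc, ← mul_assoc, mul_left_inj]

theorem torus_mk (g : GL (Fin 2) L) :
    torus (ProjGenLinGroup.mk g) = (Subgroup.centralizer {g}).map ProjGenLinGroup.mk := by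
  obtain ⟨u, hu⟩ := ProjGenLinGroup.mk_eq_mk_iff.mp (mk_lift₂ (ProjGenLinGroup.mk g)).symm
  rw [torus, ← hu, centralizer_mul_scalar]

theorem mem_torus_mk {g : GL (Fin 2) L} {x : PGL(2, L)} :
    x ∈ torus (ProjGenLinGroup.mk g) ↔
      ∃ a : GL (Fin 2) L, (a : M₂ L) * g = (g : M₂ L) * a ∧ ProjGenLinGroup.mk a = x := by
  rw [torus_mk, Subgroup.mem_map]
  simp only [Subgroup.mem_centralizer_singleton_iff, Units.ext_iff, Units.val_mul]

theorem self_mem_torus (t : PGL(2, L)) : t ∈ torus t :=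
  ⟨lift₂ t, Subgroup.mem_centralizer_singleton_iff.mpr rfl, mk_lift₂ t⟩

theorem torus_comm {t : PGL(2, L)} (ht : IsReg t) {a b : PGL(2, L)} (ha : a ∈ torus t)
    (hb : b ∈ torus t) : a * b = b * a := by
  induction t using ProjGenLinGroup.induction_on with | mk g =>
  obtain ⟨x, hx, rfl⟩ := mem_torus_mk.mp ha
  obtain ⟨y, hy, rfl⟩ := mem_torus_mk.mp hb
  rw [← map_mul, ← map_mul]
  exact congrArg _ (Units.ext (commute_of_commute (nonScalar_of_isReg ht) hx hy))

theorem torus_le_centralizer {t : PGL(2, L)} : torus t ≤ Subgroup.centralizer {t} := by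
  rintro x ⟨a, ha, rfl⟩
  rw [Subgroup.mem_centralizer_singleton_iff]
  conv_lhs => rw [← mk_lift₂ t]
  conv_rhs => rw [← mk_lift₂ t]
  rw [← map_mul, ← map_mul, Subgroup.mem_centralizer_singleton_iff.mp ha]

/-- An element centralising a class commutes or anticommutes with a representative. -/
theorem centralizer_cases {g a : GL (Fin 2) L}
    (h : ProjGenLinGroup.mk a ∈ Subgroup.centralizer {ProjGenLinGroup.mk g}) :
    (a : M₂ L) * g = (g : M₂ L) * a ∨
      ((a : M₂ L) * g = -((g : M₂ L) * a) ∧ (g : M₂ L).trace = 0) := by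
  rw [Subgroup.mem_centralizer_singleton_iff, ← map_mul, ← map_mul, mk_eq_mk_iff_smul] at h
  obtain ⟨c, hc⟩ := h
  rw [Units.val_mul, Units.val_mul] at hc
  have hg : (g : M₂ L).det ≠ 0 := g.det_ne_zero
  have ha : (a : M₂ L).det ≠ 0 := a.det_ne_zero
  have hc2 : c * c = 1 := by
    have := congrArg Matrix.det hc
    rw [Matrix.det_smul, Matrix.det_mul, Matrix.det_mul, Fintype.card_fin] at this
    apply mul_right_cancel₀ (mul_ne_zero hg ha)
    linear_combination this
  rcases mul_self_eq_one_iff.mp hc2 with rfl | rfl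
  · rw [one_smul] at hc
    exact Or.inl hc
  · rw [neg_one_smul] at hc
    rcases eq_or_ne (g : M₂ L).trace 0 with ht | ht
    · exact Or.inr ⟨neg_eq_iff_eq_neg.mp hc, ht⟩
    · left
      have e : ((a * g * a⁻¹ : GL (Fin 2) L) : M₂ L) = -(g : M₂ L) := by
        rw [Units.val_mul, Units.val_mul, neg_eq_iff_eq_neg.mp hc, Matrix.neg_mul, Matrix.mul_assoc,
          a.mul_inv, Matrix.mul_one]
      have := congrArg Matrix.trace e
      rw [Units.val_mul, Units.val_mul, Matrix.trace_units_conj, Matrix.trace_neg] at this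
      rw [neg_eq_iff_eq_neg.mp hc]
      have h2 : (2 : L) * (g : M₂ L).trace = 0 := by linear_combination this
      have h20 : (2 : L) = 0 := (mul_eq_zero.mp h2).resolve_right ht
      ext i j
      rw [Matrix.neg_apply, neg_eq_iff_add_eq_zero, ← two_mul, h20, zero_mul]

end Classes

end FermatAgent.LT.Classes

end
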